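import Fermat.Agent.RT.Patch.Limit
import Fermat.Agent.RT.HeckeRep.Image
import Fermat.Agent.Deformation.PowerSeries
import Mathlib.LinearAlgebra.Matrix.Charpoly.Basic
import Mathlib.RingTheory.Nilpotent.Basic
import Mathlib.RingTheory.Adjoin.Basic
import Mathlib.LinearAlgebra.FreeModule.Finite.Matrix

/-!
# Patched modules

A `PMod` is a free module `S ^ d` with commuting matrices indexed by `τ`, nilpotent modulo the
maximal ideal; `O⟦τ⟧` acts on it through a homomorphism to matrices.
-/

set_option autoImplicit false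

noncomputable section

namespace FLTAgent.RT.Patch

open IsLocalRing Matrix MvPowerSeries

/-- Commuting matrices on `S ^ d`, nilpotent modulo the maximal ideal. -/
structure PMod (S : Type) [CommRing S] [IsLocalRing S] (τ : Type) (d : ℕ) : Type where
  act : τ → Matrix (Fin d) (Fin d) S
  comm : ∀ i j, Commute (act i) (act j)
  nil : ∀ i, ∃ k, ∀ a b, (act i ^ k) a b ∈ maximalIdeal S

section General

variable {S : Type} [CommRing S] {d : ℕ}

/-- A matrix with entries in an ideal satisfies a polynomial relation with coefficients in it. -/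
theorem charpoly_coeff_mem {I : Ideal S} {Y : Matrix (Fin d) (Fin d) S} (hY : ∀ a b, Y a b ∈ I)
    {j : ℕ} (hj : j < d) : Y.charpoly.coeff j ∈ I := by
  rw [← Ideal.Quotient.eq_zero_iff_mem, ← Polynomial.coeff_map, ← Matrix.charpoly_map,
    show Y.map (Ideal.Quotient.mk I) = 0 from
      Matrix.ext fun a b => Ideal.Quotient.eq_zero_iff_mem.mpr (hY a b)]
  simp [hj.ne]

variable {R : Type} [CommRing R] [IsLocalRing R]

/-- A nonunit of a local ring maps to a nilpotent element of a finite ring. -/
theorem exists_map_pow_eq_zero {A : Type*} [Ring A] [Finite A] (g : R →+* A) {x : R}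
    (hx : x ∈ maximalIdeal R) : ∃ k, g x ^ k = 0 := by
  obtain ⟨a, b, hne, hab⟩ := Finite.exists_ne_map_eq_of_infinite fun n => g x ^ n
  wlog h : a < b generalizing a b
  · exact this b a hne.symm hab.symm (by omega)
  refine ⟨a, ?_⟩
  have hu : IsUnit (1 - x ^ (b - a)) := by
    by_contra hcon
    have h1 := (maximalIdeal R).add_mem ((IsLocalRing.mem_maximalIdeal _).mpr hcon)
      (Ideal.pow_mem_of_mem _ hx (b - a) (by omega))
    rw [sub_add_cancel] at h1
    exact (maximalIdeal.isMaximal R).ne_top ((Ideal.eq_top_iff_one _).mpr h1)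
  refine (hu.map g).mul_left_eq_zero.mp ?_
  rw [map_sub, map_one, map_pow, mul_sub, mul_one, ← pow_add, Nat.add_sub_cancel' h.le, sub_eq_zero]
  exact hab

variable [IsNoetherianRing R]

/-- A homomorphism to a finite ring kills a power of the maximal ideal. -/
theorem exists_pow_le_ker {A : Type*} [Ring A] [Finite A] (g : R →+* A) :
    ∃ n, maximalIdeal R ^ n ≤ RingHom.ker g := by
  refine Ideal.exists_pow_le_of_le_radical_of_fg (fun x hx => ?_)
    (IsNoetherian.noetherian (maximalIdeal R))
  obtain ⟨k, hk⟩ := exists_map_pow_eq_zero g hx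
  exact ⟨k, by rw [RingHom.mem_ker, map_pow, hk]⟩

omit [IsNoetherianRing R] in
/-- An element congruent to an ideal modulo every power of the maximal ideal lies in it. -/
theorem mem_of_forall_mem_sup_pow [IsNoetherianRing R] {J : Ideal R} {x : R}
    (h : ∀ n, x ∈ J ⊔ maximalIdeal R ^ n) : x ∈ J := by
  rw [← Ideal.Quotient.eq_zero_iff_mem, ← Submodule.mem_bot R,
    ← Ideal.iInf_pow_smul_eq_bot_of_isLocalRing (R := R) (M := R ⧸ J) (I := maximalIdeal R)
      (maximalIdeal.isMaximal R).ne_top, Submodule.mem_iInf]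
  intro n
  obtain ⟨j, hj, y, hy, rfl⟩ := Submodule.mem_sup.mp (h n)
  rw [map_add, Ideal.Quotient.eq_zero_iff_mem.mpr hj, zero_add,
    show Ideal.Quotient.mk J y = y • (1 : R ⧸ J) by
      rw [Algebra.smul_def, mul_one]; rfl]
  exact Submodule.smul_mem_smul hy Submodule.mem_top

/-- Polynomials approximate power series. -/
theorem exists_polynomial_sub_mem {σ : Type} [Finite σ] {O : Type} [CommRing O] [IsLocalRing O]
    (f : MvPowerSeries σ O) (n : ℕ) :
    ∃ q : MvPolynomial σ O, f - q ∈ maximalIdeal (MvPowerSeries σ O) ^ n :=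
  ⟨_, Ideal.pow_right_mono Deformation.span_X_le_maximalIdeal n
    (Deformation.sub_truncTotal_mem_span_X_pow f n)⟩

/-- Two algebra maps from a power series ring to a finite algebra agreeing on the variables are
equal. -/
theorem algHom_finite_ext {σ : Type} [Finite σ] {O : Type} [CommRing O] [IsLocalRing O]
    [IsNoetherianRing O] {A : Type*} [Ring A] [Algebra O A] [Finite A]
    {g g' : MvPowerSeries σ O →ₐ[O] A}
    (h : ∀ i, g (MvPowerSeries.X i) = g' (MvPowerSeries.X i)) : g = g' := by
  refine AlgHom.ext fun f => ?_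
  obtain ⟨n, hn⟩ := exists_pow_le_ker (g : MvPowerSeries σ O →+* A)
  obtain ⟨n', hn'⟩ := exists_pow_le_ker (g' : MvPowerSeries σ O →+* A)
  obtain ⟨q, hq⟩ := exists_polynomial_sub_mem f (n + n')
  have e : g f = g (q : MvPowerSeries σ O) := by
    have := hn (Ideal.pow_le_pow_right (Nat.le_add_right n n') hq)
    rwa [RingHom.mem_ker, map_sub, sub_eq_zero] at this
  have e' : g' f = g' (q : MvPowerSeries σ O) := by
    have := hn' (Ideal.pow_le_pow_right (Nat.le_add_left n' n) hq)
    rwa [RingHom.mem_ker, map_sub, sub_eq_zero] at this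
  have hq' : g.comp (MvPolynomial.coeToMvPowerSeries.algHom O) =
      g'.comp (MvPolynomial.coeToMvPowerSeries.algHom O) :=
    MvPolynomial.algHom_ext fun i => by simpa using h i
  rw [e, e']
  simpa using DFunLike.congr_fun hq' q

end General

variable {S : Type} [CommRing S] [IsLocalRing S] {τ : Type} {d : ℕ} (P : PMod S τ d)

/-- The generators with an augmentation component. -/
def PMod.augGen (i : τ) : Matrix (Fin d) (Fin d) S × S := (P.act i, 0)

/-- The algebra of a patched module, with an augmentation component. -/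
def PMod.aug : Subalgebra S (Matrix (Fin d) (Fin d) S × S) :=
  Algebra.adjoin S (Set.range P.augGen)

instance PMod.instIsMulCommutativeAug : IsMulCommutative P.aug :=
  Algebra.isMulCommutative_adjoin S (by
    rintro _ ⟨i, rfl⟩ _ ⟨j, rfl⟩
    exact Prod.ext (P.comm i j).eq rfl)

open scoped IsMulCommutative in
instance PMod.instCommRingAug : CommRing P.aug := inferInstance

instance PMod.instNontrivialAug : Nontrivial P.aug :=
  ⟨⟨0, 1, fun h => zero_ne_one (congrArg (fun z : P.aug => (z : Matrix (Fin d) (Fin d) S × S).2) h)⟩⟩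

instance PMod.instFiniteAug [IsNoetherianRing S] : Module.Finite S P.aug :=
  Module.Finite.of_injective P.aug.val.toLinearMap Subtype.val_injective

/-- A generator of the augmented algebra. -/
def PMod.augElt (i : τ) : P.aug := ⟨P.augGen i, Algebra.subset_adjoin ⟨i, rfl⟩⟩

variable [IsNoetherianRing S]

theorem PMod.augElt_mem (i : τ) (n : Ideal P.aug) [n.IsMaximal] : P.augElt i ∈ n := by
  obtain ⟨k, hk⟩ := P.nil i
  have : Algebra.IsIntegral S P.aug := Algebra.IsIntegral.of_finite S P.aug
  have hmn : ∀ c ∈ maximalIdeal S, algebraMap S P.aug c ∈ n := fun c hc => by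
    have hmax : (n.comap (algebraMap S P.aug)).IsMaximal :=
      Ideal.isMaximal_comap_of_isIntegral_of_isMaximal n
    rw [← Ideal.mem_comap, IsLocalRing.eq_maximalIdeal hmax]
    exact hc
  let y : P.aug := P.augElt i ^ (k + 1)
  have hy1 : ∀ a b, (P.act i ^ (k + 1)) a b ∈ maximalIdeal S := fun a b => by
    rw [pow_succ, Matrix.mul_apply]
    exact Ideal.sum_mem _ fun c _ => Ideal.mul_mem_right _ _ (hk a c)
  let χ := (P.act i ^ (k + 1)).charpoly
  have hrel : y * Polynomial.aeval y χ = 0 := by
    refine Subtype.ext (Prod.ext ?_ ?_)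
    · have h1 : ((AlgHom.fst S _ _).comp P.aug.val) (y * Polynomial.aeval y χ) = 0 := by
        rw [map_mul, ← Polynomial.aeval_algHom_apply]
        have h2 : ((AlgHom.fst S _ _).comp P.aug.val) y = P.act i ^ (k + 1) := by
          simp [y, PMod.augElt, PMod.augGen]
        rw [h2, Matrix.aeval_self_charpoly, mul_zero]
      exact h1
    · have h1 : ((AlgHom.snd S _ _).comp P.aug.val) (y * Polynomial.aeval y χ) = 0 := by
        rw [map_mul]
        have h2 : ((AlgHom.snd S _ _).comp P.aug.val) y = 0 := by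
          simp [y, PMod.augElt, PMod.augGen]
        rw [h2, zero_mul]
      exact h1
  have hdeg : χ.natDegree = d := by
    rw [Matrix.charpoly_natDegree_eq_dim, Fintype.card_fin]
  rw [Polynomial.aeval_eq_sum_range, Finset.sum_range_succ, hdeg] at hrel
  have hlead : χ.coeff d = 1 := hdeg ▸ Matrix.charpoly_monic _
  rw [hlead, one_smul, mul_add] at hrel
  have hy : y * y ^ d ∈ n := by
    rw [eq_neg_of_add_eq_zero_right hrel]
    refine neg_mem (Ideal.mul_mem_left _ _ (Ideal.sum_mem n fun j hj => ?_))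
    rw [Algebra.smul_def]
    exact Ideal.mul_mem_right _ _ (hmn _ (charpoly_coeff_mem hy1 (Finset.mem_range.mp hj)))
  rw [← pow_succ', ← pow_mul] at hy
  exact (Ideal.IsMaximal.isPrime ‹_›).mem_of_pow_mem _ hy

theorem PMod.aug_scalar (x : P.aug) :
    ∃ r : S, ∀ n : Ideal P.aug, n.IsMaximal → x - algebraMap S P.aug r ∈ n := by
  obtain ⟨x, hx⟩ := x
  induction hx using Algebra.adjoin_induction with
  | mem g hg =>
    obtain ⟨i, rfl⟩ := hg
    exact ⟨0, fun n hn => by rw [map_zero, sub_zero]; exact P.augElt_mem i n⟩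
  | algebraMap r =>
    refine ⟨r, fun n _ => ?_⟩
    rw [show (⟨_, algebraMap_mem P.aug r⟩ : P.aug) = algebraMap S P.aug r from rfl, sub_self]
    exact n.zero_mem
  | add x y hx hy ihx ihy =>
    obtain ⟨r, hr⟩ := ihx
    obtain ⟨s, hs⟩ := ihy
    refine ⟨r + s, fun n hn => ?_⟩
    rw [show (⟨x + y, _⟩ : P.aug) = ⟨x, hx⟩ + ⟨y, hy⟩ from rfl, map_add,
      add_sub_add_comm]
    exact n.add_mem (hr n hn) (hs n hn)
  | mul x y hx hy ihx ihy =>
    obtain ⟨r, hr⟩ := ihx
    obtain ⟨s, hs⟩ := ihy
    refine ⟨r * s, fun n hn => ?_⟩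
    rw [show (⟨x * y, _⟩ : P.aug) = ⟨x, hx⟩ * ⟨y, hy⟩ from rfl, map_mul,
      show (⟨x, hx⟩ : P.aug) * ⟨y, hy⟩ - algebraMap S P.aug r * algebraMap S P.aug s =
        (⟨x, hx⟩ - algebraMap S P.aug r) * ⟨y, hy⟩ +
          algebraMap S P.aug r * (⟨y, hy⟩ - algebraMap S P.aug s) by ring]
    exact n.add_mem (n.mul_mem_right _ (hr n hn)) (n.mul_mem_left _ (hs n hn))

instance PMod.instIsLocalRingAug : IsLocalRing P.aug := isLocalRing_of_scalar P.aug_scalar

instance PMod.instIsLocalHomAug : IsLocalHom (algebraMap S P.aug) := isLocalHom_of_finite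

variable [IsAdicComplete (maximalIdeal S) S]

instance PMod.instIsAdicCompleteAug : IsAdicComplete (maximalIdeal P.aug) P.aug :=
  IsLocalRing.isAdicComplete_of_module_finite (𝒪 := S) (T := P.aug)

variable {O : Type} [CommRing O] [IsLocalRing O] [Algebra O S] [Finite τ]

theorem PMod.augElt_mem_maximalIdeal (i : τ) : P.augElt i ∈ maximalIdeal P.aug :=
  P.augElt_mem i _

/-- **The action of the power series ring.** -/
def PMod.hom : MvPowerSeries τ O →ₐ[O] Matrix (Fin d) (Fin d) S :=
  (((AlgHom.fst S _ _).comp P.aug.val).restrictScalars O).comp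
    (Deformation.psEval (𝒪 := O) P.augElt P.augElt_mem_maximalIdeal)

theorem PMod.hom_X (i : τ) : P.hom (O := O) (MvPowerSeries.X i) = P.act i := by
  rw [PMod.hom, AlgHom.comp_apply, Deformation.psEval_X]
  rfl

theorem PMod.hom_mul_comm (f g : MvPowerSeries τ O) : Commute (P.hom f) (P.hom g) :=
  (Commute.all f g).map P.hom

/-- Matrices intertwining the generators intertwine the polynomials. -/
theorem PMod.mul_hom_coe {d' : ℕ} (Q : PMod S τ d') (E : Matrix (Fin d') (Fin d) S)
    (h : ∀ i, E * P.act i = Q.act i * E) (q : MvPolynomial τ O) :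
    E * P.hom (O := O) (q : MvPowerSeries τ O) = Q.hom (O := O) (q : MvPowerSeries τ O) * E := by
  induction q using MvPolynomial.induction_on with
  | C c =>
    rw [MvPolynomial.coe_C, show (MvPowerSeries.C c : MvPowerSeries τ O) =
      algebraMap O (MvPowerSeries τ O) c by rw [MvPowerSeries.algebraMap_apply]; rfl,
      AlgHom.commutes, AlgHom.commutes, Algebra.algebraMap_eq_smul_one,
      Algebra.algebraMap_eq_smul_one, Matrix.mul_smul, Matrix.smul_mul, Matrix.mul_one, Matrix.one_mul]
  | add p q hp hq =>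
    rw [MvPolynomial.coe_add, map_add, map_add, Matrix.mul_add, Matrix.add_mul, hp, hq]
  | mul_X p i hp =>
    rw [MvPolynomial.coe_mul, MvPolynomial.coe_X, map_mul, map_mul, P.hom_X, Q.hom_X,
      ← Matrix.mul_assoc, hp, Matrix.mul_assoc, h, ← Matrix.mul_assoc]

variable [IsNoetherianRing O] [Finite (ResidueField S)]

instance finiteMatQuot (n : ℕ) : Finite (Matrix (Fin d) (Fin d) (S ⧸ maximalIdeal S ^ n)) := by
  have := finite_quotient_pow (S := S) n
  exact inferInstanceAs (Finite (Fin d → Fin d → S ⧸ maximalIdeal S ^ n))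

/-- The action modulo a power of the maximal ideal. -/
def PMod.homMod (n : ℕ) : MvPowerSeries τ O →ₐ[O] Matrix (Fin d) (Fin d) (S ⧸ maximalIdeal S ^ n) :=
  (Ideal.Quotient.mkₐ O (maximalIdeal S ^ n)).mapMatrix.comp P.hom

omit [IsNoetherianRing O] [Finite (ResidueField S)] in
theorem PMod.homMod_apply (n : ℕ) (f : MvPowerSeries τ O) :
    P.homMod n f = (P.hom f).map (Ideal.Quotient.mk (maximalIdeal S ^ n)) := rfl

/-- **Continuity.** -/
theorem PMod.exists_hom_mem_pow (n : ℕ) :
    ∃ N, ∀ f ∈ maximalIdeal (MvPowerSeries τ O) ^ N, ∀ a b, P.hom f a b ∈ maximalIdeal S ^ n := by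
  obtain ⟨N, hN⟩ := exists_pow_le_ker (A := Matrix (Fin d) (Fin d) (S ⧸ maximalIdeal S ^ n))
    (P.homMod (O := O) n).toRingHom
  refine ⟨N, fun f hf a b => Ideal.Quotient.eq_zero_iff_mem.mp ?_⟩
  have h0 : P.homMod (O := O) n f = 0 := hN hf
  exact Matrix.ext_iff.mpr h0 a b

/-- **Intertwiners.** -/
theorem PMod.mul_hom {d' : ℕ} (Q : PMod S τ d') (E : Matrix (Fin d') (Fin d) S)
    (h : ∀ i, E * P.act i = Q.act i * E) (f : MvPowerSeries τ O) :
    E * P.hom f = Q.hom f * E := by
  refine Matrix.ext fun a b => sub_eq_zero.mp ?_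
  refine Deformation.eq_zero_of_forall_mem_pow (I := maximalIdeal S) fun n => ?_
  obtain ⟨N, hN⟩ := P.exists_hom_mem_pow (O := O) n
  obtain ⟨N', hN'⟩ := Q.exists_hom_mem_pow (O := O) n
  obtain ⟨q, hq⟩ := exists_polynomial_sub_mem f (N + N')
  have e : E * P.hom f - Q.hom f * E = E * P.hom (f - (q : MvPowerSeries τ O)) - Q.hom (f - (q : MvPowerSeries τ O)) * E := by
    rw [map_sub, map_sub, Matrix.mul_sub, Matrix.sub_mul, P.mul_hom_coe Q E h q, sub_sub_sub_cancel_right]
  rw [← Matrix.sub_apply, e, Matrix.sub_apply, Matrix.mul_apply, Matrix.mul_apply]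
  exact sub_mem
    (Ideal.sum_mem _ fun c _ => Ideal.mul_mem_left _ _
      (hN _ (Ideal.pow_le_pow_right (Nat.le_add_right N N') hq) c b))
    (Ideal.sum_mem _ fun c _ => Ideal.mul_mem_right _ _
      (hN' _ (Ideal.pow_le_pow_right (Nat.le_add_left N' N) hq) a c))

/-- **The action commutes with whatever commutes with the generators.** -/
theorem PMod.commute_hom {E : Matrix (Fin d) (Fin d) S} (h : ∀ i, Commute E (P.act i))
    (f : MvPowerSeries τ O) : Commute E (P.hom f) :=
  P.mul_hom P E h f

/-- **Congruences**: congruent generators give congruent actions. -/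
theorem PMod.hom_congr (Q : PMod S τ d) (J : Ideal S)
    (h : ∀ i a b, P.act i a b - Q.act i a b ∈ J) (f : MvPowerSeries τ O) (a b : Fin d) :
    P.hom f a b - Q.hom f a b ∈ J := by
  have hq : ∀ q : MvPolynomial τ O, (P.hom (O := O) (q : MvPowerSeries τ O)).map
      (Ideal.Quotient.mk J) = (Q.hom (O := O) (q : MvPowerSeries τ O)).map (Ideal.Quotient.mk J) := by
    intro q
    induction q using MvPolynomial.induction_on with
    | C c =>
      rw [MvPolynomial.coe_C, show (MvPowerSeries.C c : MvPowerSeries τ O) =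
        algebraMap O (MvPowerSeries τ O) c by rw [MvPowerSeries.algebraMap_apply]; rfl,
        AlgHom.commutes, AlgHom.commutes]
    | add p q hp hq =>
      rw [MvPolynomial.coe_add, map_add, map_add, Matrix.map_add _ (map_add _), hp, hq,
        Matrix.map_add _ (map_add _)]
    | mul_X p i hp =>
      rw [MvPolynomial.coe_mul, MvPolynomial.coe_X, map_mul, map_mul, P.hom_X, Q.hom_X,
        Matrix.map_mul, Matrix.map_mul, hp,
        show (P.act i).map (Ideal.Quotient.mk J) = (Q.act i).map (Ideal.Quotient.mk J) from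
          Matrix.ext fun a b => Ideal.Quotient.eq.mpr (h i a b)]
  refine mem_of_forall_mem_sup_pow fun n => ?_
  obtain ⟨N, hN⟩ := P.exists_hom_mem_pow (O := O) n
  obtain ⟨N', hN'⟩ := Q.exists_hom_mem_pow (O := O) n
  obtain ⟨q, hqf⟩ := exists_polynomial_sub_mem f (N + N')
  have e1 := hN _ (Ideal.pow_le_pow_right (Nat.le_add_right N N') hqf) a b
  have e2 := hN' _ (Ideal.pow_le_pow_right (Nat.le_add_left N' N) hqf) a b
  have e3 : P.hom (O := O) (q : MvPowerSeries τ O) a b - Q.hom (O := O) (q : MvPowerSeries τ O) a b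
      ∈ J := Ideal.Quotient.eq.mp (congrFun (congrFun (hq q) a) b)
  rw [map_sub, Matrix.sub_apply] at e1 e2
  refine Submodule.mem_sup.mpr ⟨_, e3, _, sub_mem e1 e2, ?_⟩
  ring

/-- An element approximated by elements killed at deeper and deeper levels is killed. -/
theorem PMod.hom_eq_zero_of_approx (f : MvPowerSeries τ O)
    (h : ∀ n, ∀ j, n ≤ j → ∃ g, f - g ∈ maximalIdeal (MvPowerSeries τ O) ^ j ∧ P.homMod n g = 0) :
    P.hom f = 0 := by
  refine Matrix.ext fun a b => Deformation.eq_zero_of_forall_mem_pow (I := maximalIdeal S) fun n => ?_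
  obtain ⟨N, hN⟩ := P.exists_hom_mem_pow (O := O) n
  obtain ⟨g, hg, hg0⟩ := h n (n + N) (Nat.le_add_right n N)
  have e1 := hN _ (Ideal.pow_le_pow_right (Nat.le_add_left N n) hg) a b
  have e2 : P.hom g a b ∈ maximalIdeal S ^ n :=
    Ideal.Quotient.eq_zero_iff_mem.mp (congrFun (congrFun hg0 a) b)
  rw [map_sub, Matrix.sub_apply] at e1
  have := add_mem e1 e2
  rwa [sub_add_cancel] at this

end FLTAgent.RT.Patch
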