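import Fermat.Agent.Deformation.Coeff
import Mathlib.RingTheory.LocalRing.Quotient
import Mathlib.Data.Fintype.Pigeonhole
import Mathlib.Order.Interval.Finset.Nat

/-!
# Compactness of a complete local ring with finite residue field

A sequence of finite tuples has a subsequence converging adically.
-/

set_option autoImplicit false

open IsLocalRing

namespace FLTAgent.RT.Patch

variable {S : Type} [CommRing S] [IsLocalRing S] [IsNoetherianRing S]
  [IsAdicComplete (maximalIdeal S) S] [Finite (ResidueField S)]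

omit [IsAdicComplete (maximalIdeal S) S] in
theorem finite_quotient_pow (n : ℕ) : Finite (S ⧸ maximalIdeal S ^ n) :=
  IsLocalRing.finite_quotient_iff.mpr ⟨n, le_rfl⟩

omit [IsAdicComplete (maximalIdeal S) S] in
/-- An infinite set of indices contains an infinite one on which a tuple is constant modulo a power
of the maximal ideal. -/
theorem exists_infinite_subset_congr {κ : Type*} [Finite κ] (x : ℕ → κ → S) (n : ℕ) {A : Set ℕ}
    (hA : A.Infinite) :
    ∃ B ⊆ A, B.Infinite ∧ ∀ a ∈ B, ∀ b ∈ B, ∀ j, x a j - x b j ∈ maximalIdeal S ^ n := by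
  have := finite_quotient_pow (S := S) n
  have := hA.to_subtype
  obtain ⟨y, hy⟩ := Finite.exists_infinite_fiber
    fun a : A => fun j => Ideal.Quotient.mk (maximalIdeal S ^ n) (x a.1 j)
  refine ⟨Subtype.val '' _, ?_, (Set.infinite_coe_iff.mp hy).image Subtype.val_injective.injOn, ?_⟩
  · rintro _ ⟨a, -, rfl⟩
    exact a.2
  · rintro _ ⟨a, ha, rfl⟩ _ ⟨b, hb, rfl⟩ j
    exact Ideal.Quotient.eq.mp ((congrFun ha j).trans (congrFun hb j).symm)

/-- **Compactness**: a sequence of finite tuples has a convergent subsequence. -/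
theorem exists_subseq_limit {κ : Type*} [Finite κ] (x : ℕ → κ → S) :
    ∃ (L : κ → S) (φ : ℕ → ℕ), StrictMono φ ∧
      ∀ n j, L j - x (φ n) j ∈ maximalIdeal S ^ n := by
  classical
  choose next hsub hinf hcongr using fun n (A : {A : Set ℕ // A.Infinite}) =>
    exists_infinite_subset_congr x n A.2
  let A : ℕ → {A : Set ℕ // A.Infinite} := fun n =>
    n.rec ⟨next 0 ⟨Set.univ, Set.infinite_univ⟩, hinf 0 _⟩
      fun m Am => ⟨next (m + 1) Am, hinf (m + 1) Am⟩
  have hA : ∀ n, ∀ a ∈ (A n).1, ∀ b ∈ (A n).1, ∀ j, x a j - x b j ∈ maximalIdeal S ^ n := by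
    intro n
    cases n with
    | zero => exact hcongr 0 _
    | succ m => exact hcongr (m + 1) _
  choose g hg1 hg2 using fun n (a : ℕ) => (A n).2.exists_gt a
  let φ : ℕ → ℕ := fun n => n.rec (g 0 0) fun m a => g (m + 1) a
  have hmem : ∀ n, φ n ∈ (A n).1 := by
    intro n
    cases n with
    | zero => exact hg1 0 0
    | succ m => exact hg1 (m + 1) _
  have hmono : StrictMono φ := strictMono_nat_of_lt_succ fun n => hg2 (n + 1) (φ n)
  have hstep : ∀ j n, x (φ (n + 1)) j - x (φ n) j ∈ maximalIdeal S ^ n := fun j n =>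
    hA n _ (hsub (n + 1) (A n) (hmem (n + 1))) _ (hmem n) j
  choose L hL using fun j =>
    Deformation.exists_adic_limit (I := maximalIdeal S) (fun n => x (φ n) j) (hstep j)
  exact ⟨L, φ, hmono, fun n j => hL j n⟩

end FLTAgent.RT.Patch
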