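import Fermat.Agent.RT.Patch.PModLimit

/-!
# Values of limit modules at convergent series
-/

set_option autoImplicit false

noncomputable section

namespace FLTAgent.RT.Patch

open IsLocalRing Matrix

variable {S : Type} [CommRing S] [IsLocalRing S] [IsNoetherianRing S]
  [IsAdicComplete (maximalIdeal S) S] {O : Type} [CommRing O] [IsLocalRing O] [Algebra O S]
  [IsNoetherianRing O] [Finite (ResidueField S)]

omit [IsNoetherianRing S] [IsAdicComplete (maximalIdeal S) S] [Finite (ResidueField S)] in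
theorem map_mk_red {a b : Type*} {n k : ℕ} (h : n ≤ k) (M : Matrix a b S) :
    (M.map (Ideal.Quotient.mk (maximalIdeal S ^ k))).map (red h) =
      M.map (Ideal.Quotient.mk (maximalIdeal S ^ n)) :=
  Matrix.ext fun _ _ => red_mk h _

omit [IsNoetherianRing S] [IsAdicComplete (maximalIdeal S) S] [Finite (ResidueField S)] in
theorem map_red_red {a b : Type*} {n k l : ℕ} (h : n ≤ k) (h' : k ≤ l)
    (M : Matrix a b (S ⧸ maximalIdeal S ^ l)) :
    (M.map (red h')).map (red h) = M.map (red (h.trans h')) :=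
  Matrix.ext fun _ _ => red_red h h' _

/-- The value at the limit of a convergent sequence of series. -/
theorem PMod.exists_hom_map_eq {τ : Type} [Finite τ] {d : ℕ} (L : PMod S τ d) {ν : ℕ → ℕ}
    (hν : ∀ n, n ≤ ν n)
    {φ : ∀ n, MvPowerSeries τ O →ₐ[O] Matrix (Fin d) (Fin d) (S ⧸ maximalIdeal S ^ n)}
    (hL : ∀ n f, L.homMod n f = (φ (ν n) f).map (red (hν n)))
    {g : MvPowerSeries τ O} (G : ℕ → MvPowerSeries τ O)
    (hg : ∀ n, g - G n ∈ maximalIdeal (MvPowerSeries τ O) ^ n) (n : ℕ) :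
    ∃ (m : ℕ) (hm : n ≤ m), (L.hom g).map (Ideal.Quotient.mk (maximalIdeal S ^ n)) =
      (φ (ν m) (G m)).map (red (hm.trans (hν m))) := by
  obtain ⟨N, hN⟩ := L.exists_hom_mem_pow (O := O) n
  refine ⟨n + N, Nat.le_add_right n N, ?_⟩
  have h1 : L.homMod n g = L.homMod n (G (n + N)) := Matrix.ext fun a b => by
    rw [PMod.homMod_apply, PMod.homMod_apply, Matrix.map_apply, Matrix.map_apply,
      Ideal.Quotient.eq, ← Matrix.sub_apply, ← map_sub]
    exact hN _ (Ideal.pow_le_pow_right (Nat.le_add_left N n) (hg _)) a b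
  rw [← PMod.homMod_apply, h1, ← L.homMod_red (Nat.le_add_right n N), hL, map_red_red]

/-- A product with a convergent sequence of matrices vanishes in the limit. -/
theorem PMod.mul_hom_eq_zero_of_limit {τ : Type} [Finite τ] {d e : ℕ} (L : PMod S τ d) {ν : ℕ → ℕ}
    (hν : ∀ n, n ≤ ν n)
    {φ : ∀ n, MvPowerSeries τ O →ₐ[O] Matrix (Fin d) (Fin d) (S ⧸ maximalIdeal S ^ n)}
    (hL : ∀ n f, L.homMod n f = (φ (ν n) f).map (red (hν n)))
    (E : Matrix (Fin e) (Fin d) S) (Es : ∀ n, Matrix (Fin e) (Fin d) (S ⧸ maximalIdeal S ^ n))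
    (hE : ∀ n, E.map (Ideal.Quotient.mk (maximalIdeal S ^ n)) = (Es (ν n)).map (red (hν n)))
    {g : MvPowerSeries τ O} (G : ℕ → MvPowerSeries τ O)
    (hg : ∀ n, g - G n ∈ maximalIdeal (MvPowerSeries τ O) ^ n)
    (h : ∀ n, Es (ν n) * φ (ν n) (G n) = 0) : E * L.hom g = 0 :=
  matrix_eq_of_forall_map_eq fun n => by
    obtain ⟨m, hm, he⟩ := L.exists_hom_map_eq hν hL G hg n
    rw [Matrix.map_mul, he, ← map_mk_red hm E, hE m, map_red_red, ← Matrix.map_mul, h,
      Matrix.map_zero _ (map_zero _), Matrix.map_zero _ (map_zero _)]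

/-- Vanishing at a convergent sequence of series passes to the limit. -/
theorem PMod.hom_eq_zero_of_limit {τ : Type} [Finite τ] {d : ℕ} (L : PMod S τ d) {ν : ℕ → ℕ}
    (hν : ∀ n, n ≤ ν n)
    {φ : ∀ n, MvPowerSeries τ O →ₐ[O] Matrix (Fin d) (Fin d) (S ⧸ maximalIdeal S ^ n)}
    (hL : ∀ n f, L.homMod n f = (φ (ν n) f).map (red (hν n)))
    {g : MvPowerSeries τ O} (G : ℕ → MvPowerSeries τ O)
    (hg : ∀ n, g - G n ∈ maximalIdeal (MvPowerSeries τ O) ^ n)
    (h : ∀ n, φ (ν n) (G n) = 0) : L.hom g = 0 :=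
  matrix_eq_of_forall_map_eq fun n => by
    obtain ⟨m, hm, he⟩ := L.exists_hom_map_eq hν hL G hg n
    rw [he, h, Matrix.map_zero _ (map_zero _), Matrix.map_zero _ (map_zero _)]

end FLTAgent.RT.Patch
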