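import Fermat.Agent.RT.Patch.Module

/-!
# Limits of patched modules

Finitely many sequences of actions modulo higher and higher powers of the maximal ideal, together
with finitely many matrices, converge simultaneously along a subsequence.
-/

set_option autoImplicit false

noncomputable section

namespace FLTAgent.RT.Patch

open IsLocalRing Matrix

variable {S : Type} [CommRing S] [IsLocalRing S]

/-- Reduction from a higher power of the maximal ideal to a lower one. -/
abbrev red {n k : ℕ} (h : n ≤ k) : (S ⧸ maximalIdeal S ^ k) →+* (S ⧸ maximalIdeal S ^ n) :=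
  Ideal.Quotient.factor (Ideal.pow_le_pow_right h)

theorem red_mk {n k : ℕ} (h : n ≤ k) (x : S) :
    red h (Ideal.Quotient.mk (maximalIdeal S ^ k) x) = Ideal.Quotient.mk (maximalIdeal S ^ n) x :=
  rfl

theorem red_red {n k l : ℕ} (h : n ≤ k) (h' : k ≤ l) (x : S ⧸ maximalIdeal S ^ l) :
    red h (red h' x) = red (h.trans h') x := by
  obtain ⟨y, rfl⟩ := Ideal.Quotient.mk_surjective x
  rfl

variable [IsNoetherianRing S] [IsAdicComplete (maximalIdeal S) S]

/-- Matrices agreeing modulo every power of the maximal ideal are equal. -/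
theorem matrix_eq_of_forall_map_eq {a b : Type*} {M N : Matrix a b S}
    (h : ∀ n, M.map (Ideal.Quotient.mk (maximalIdeal S ^ n)) =
      N.map (Ideal.Quotient.mk (maximalIdeal S ^ n))) : M = N :=
  Matrix.ext fun i j => sub_eq_zero.mp
    (Deformation.eq_zero_of_forall_mem_pow (I := maximalIdeal S) fun n =>
      Ideal.Quotient.eq.mp (Matrix.ext_iff.mpr (h n) i j))

variable {O : Type} [CommRing O] [IsLocalRing O] [Algebra O S]

theorem PMod.homMod_red {τ : Type} [Finite τ] {d : ℕ} [IsNoetherianRing O]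
    [Finite (ResidueField S)] (P : PMod S τ d) {n k : ℕ} (h : n ≤ k) (f : MvPowerSeries τ O) :
    (P.homMod k f).map (red h) = P.homMod n f :=
  Matrix.ext fun _ _ => rfl

variable [IsNoetherianRing O] [Finite (ResidueField S)]

/-- **Limits of patched modules**: along a subsequence, finitely many sequences of actions modulo
powers of the maximal ideal and finitely many sequences of matrices converge. -/
theorem exists_limit {ι κ : Type} [Finite ι] [Finite κ] {τ : ι → Type} [∀ i, Finite (τ i)]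
    {d : ι → ℕ} {r c : κ → ℕ}
    (φ : ∀ (n : ℕ) (i : ι),
      MvPowerSeries (τ i) O →ₐ[O] Matrix (Fin (d i)) (Fin (d i)) (S ⧸ maximalIdeal S ^ n))
    (E : ∀ (n : ℕ) (k : κ), Matrix (Fin (r k)) (Fin (c k)) (S ⧸ maximalIdeal S ^ n)) :
    ∃ (s : ℕ → ℕ) (hs : StrictMono s) (L : ∀ i, PMod S (τ i) (d i))
      (F : ∀ k, Matrix (Fin (r k)) (Fin (c k)) S),
      (∀ n i f, (L i).homMod n f = (φ (s n) i f).map (red (hs.id_le n))) ∧
        ∀ n k, (F k).map (Ideal.Quotient.mk (maximalIdeal S ^ n)) =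
          (E (s n) k).map (red (hs.id_le n)) := by
  choose lA hlA using fun (n : ℕ) (q : Σ i : ι, τ i × Fin (d i) × Fin (d i)) =>
    Ideal.Quotient.mk_surjective (φ n q.1 (MvPowerSeries.X q.2.1) q.2.2.1 q.2.2.2)
  choose lE hlE using fun (n : ℕ) (q : Σ k : κ, Fin (r k) × Fin (c k)) =>
    Ideal.Quotient.mk_surjective (E n q.1 q.2.1 q.2.2)
  obtain ⟨y, s, hs, hy⟩ := exists_subseq_limit fun n => Sum.elim (lA n) (lE n)
  let A : ∀ i, τ i → Matrix (Fin (d i)) (Fin (d i)) S := fun i t =>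
    Matrix.of fun a b => y (Sum.inl ⟨i, t, a, b⟩)
  have hA : ∀ n i t, (A i t).map (Ideal.Quotient.mk (maximalIdeal S ^ n)) =
      (φ (s n) i (MvPowerSeries.X t)).map (red (hs.id_le n)) := fun n i t =>
    Matrix.ext fun a b => by
      simp only [Matrix.map_apply]
      rw [← hlA (s n) ⟨i, t, a, b⟩, red_mk]
      exact Ideal.Quotient.eq.mpr (hy n _)
  have hcomm : ∀ i t u, Commute (A i t) (A i u) := fun i t u =>
    matrix_eq_of_forall_map_eq fun n => by
      rw [Matrix.map_mul, Matrix.map_mul, hA, hA, ← Matrix.map_mul, ← Matrix.map_mul,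
        ← map_mul, ← map_mul, mul_comm]
  have hnil : ∀ i t, ∃ k, ∀ a b, (A i t ^ k) a b ∈ maximalIdeal S := fun i t => by
    have hX : (MvPowerSeries.X t : MvPowerSeries (τ i) O) ∈ maximalIdeal _ :=
      Deformation.span_X_le_maximalIdeal (Ideal.subset_span ⟨t, rfl⟩)
    obtain ⟨k, hk⟩ := exists_map_pow_eq_zero
      (A := Matrix (Fin (d i)) (Fin (d i)) (S ⧸ maximalIdeal S ^ s 1)) (φ (s 1) i).toRingHom hX
    refine ⟨k, fun a b => ?_⟩
    have h1 : (A i t ^ k).map (Ideal.Quotient.mk (maximalIdeal S ^ 1)) = 0 := by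
      rw [← RingHom.mapMatrix_apply, map_pow, RingHom.mapMatrix_apply, hA,
        ← RingHom.mapMatrix_apply, ← map_pow,
        show φ (s 1) i (MvPowerSeries.X t) ^ k = 0 from hk, map_zero]
    have h2 := Ideal.Quotient.eq_zero_iff_mem.mp (Matrix.ext_iff.mpr h1 a b)
    rwa [pow_one] at h2
  let L : ∀ i, PMod S (τ i) (d i) := fun i => ⟨A i, hcomm i, hnil i⟩
  refine ⟨s, hs, L, fun k => Matrix.of fun a b => y (Sum.inr ⟨k, a, b⟩), fun n i f => ?_,
    fun n k => Matrix.ext fun a b => ?_⟩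
  · let rn : (S ⧸ maximalIdeal S ^ s n) →ₐ[O] (S ⧸ maximalIdeal S ^ n) :=
      { red (hs.id_le n) with commutes' := fun _ => rfl }
    have h : (L i).homMod (O := O) n = rn.mapMatrix.comp (φ (s n) i) :=
      algHom_finite_ext fun t => by
        rw [PMod.homMod_apply, PMod.hom_X]
        exact hA n i t
    rw [h]
    rfl
  · simp only [Matrix.map_apply, Matrix.of_apply]
    rw [← hlE (s n) ⟨k, a, b⟩, red_mk]
    exact Ideal.Quotient.eq.mpr (hy n _)

/-- **Identities pass to the limit**, the series being allowed to vary convergently. -/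
theorem PMod.hom_eq_of_seq {τ : Type} [Finite τ] {d : ℕ} (L : PMod S τ d) {s : ℕ → ℕ}
    (hs : StrictMono s)
    {φ : ∀ n, MvPowerSeries τ O →ₐ[O] Matrix (Fin d) (Fin d) (S ⧸ maximalIdeal S ^ n)}
    (hL : ∀ n f, L.homMod n f = (φ (s n) f).map (red (hs.id_le n)))
    {f : MvPowerSeries τ O} (F : ℕ → MvPowerSeries τ O)
    (hF : ∀ n, f - F n ∈ maximalIdeal (MvPowerSeries τ O) ^ n)
    {M : Matrix (Fin d) (Fin d) S} (G : ∀ n, Matrix (Fin d) (Fin d) (S ⧸ maximalIdeal S ^ n))
    (hM : ∀ n, M.map (Ideal.Quotient.mk (maximalIdeal S ^ n)) = (G (s n)).map (red (hs.id_le n)))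
    (n₀ : ℕ) (h : ∀ n, n₀ ≤ n → φ n (F n) = G n) : L.hom f = M :=
  matrix_eq_of_forall_map_eq fun n => by
    obtain ⟨N, hN⟩ := L.exists_hom_mem_pow (O := O) n
    have hk : n ≤ n + N + n₀ := by omega
    have h1 : L.homMod n f = L.homMod n (F (s (n + N + n₀))) := Matrix.ext fun a b => by
      rw [PMod.homMod_apply, PMod.homMod_apply, Matrix.map_apply, Matrix.map_apply,
        Ideal.Quotient.eq, ← Matrix.sub_apply, ← map_sub]
      exact hN _ (Ideal.pow_le_pow_right ((by omega : N ≤ n + N + n₀).trans (hs.id_le _))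
        (hF _)) a b
    rw [← PMod.homMod_apply, h1, ← L.homMod_red hk, hL, h _ ((by omega : n₀ ≤ n + N + n₀).trans
      (hs.id_le _)), ← hM]
    exact Matrix.ext fun _ _ => rfl

/-- Vanishing passes to the limit. -/
theorem PMod.hom_eq_zero_of_seq {τ : Type} [Finite τ] {d : ℕ} (L : PMod S τ d) {s : ℕ → ℕ}
    (hs : StrictMono s)
    {φ : ∀ n, MvPowerSeries τ O →ₐ[O] Matrix (Fin d) (Fin d) (S ⧸ maximalIdeal S ^ n)}
    (hL : ∀ n f, L.homMod n f = (φ (s n) f).map (red (hs.id_le n)))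
    {f : MvPowerSeries τ O} (F : ℕ → MvPowerSeries τ O)
    (hF : ∀ n, f - F n ∈ maximalIdeal (MvPowerSeries τ O) ^ n)
    (n₀ : ℕ) (h : ∀ n, n₀ ≤ n → φ n (F n) = 0) : L.hom f = 0 :=
  L.hom_eq_of_seq hs hL F hF (fun _ => 0)
    (fun n => by rw [Matrix.map_zero _ (map_zero _), Matrix.map_zero _ (map_zero _)]) n₀ h

end FLTAgent.RT.Patch
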