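import Fermat.Agent.RT.Patch.Support
import Mathlib.RingTheory.LocalRing.Module
import Mathlib.LinearAlgebra.Matrix.ToLin

/-!
# Raising: the cokernel of a split pair of degeneracy maps

If `i₁, i₂ : A → B` have a left inverse, `j₁, j₂ : B → A` a right inverse, and
`j i = [[c, T], [T, c]]`, the cokernel of `i` is a patched module supported at every prime of the
support of `A` containing `c² - T²` but not `c`.
-/

set_option autoImplicit false

noncomputable section

open IsLocalRing Matrix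

namespace FLTAgent.RT.Patch

variable {S : Type} [CommRing S] [IsLocalRing S] {τ : Type} {d f : ℕ}

/-- An idempotent matrix over a local ring is a projection to a free module. -/
theorem exists_splitting (E : Matrix (Fin f) (Fin f) S) (hE : E * E = E) :
    ∃ (e : ℕ) (π : Matrix (Fin e) (Fin f) S) (σ : Matrix (Fin f) (Fin e) S),
      π * σ = 1 ∧ σ * π = E := by
  classical
  let φ : (Fin f → S) →ₗ[S] (Fin f → S) := Matrix.toLin' E
  have hφ : ∀ x, φ (φ x) = φ x := fun x => by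
    show Matrix.toLin' E (Matrix.toLin' E x) = Matrix.toLin' E x
    rw [← Matrix.toLin'_mul_apply, hE]
  let M := LinearMap.range φ
  have hsplit : φ.rangeRestrict ∘ₗ M.subtype = LinearMap.id := LinearMap.ext fun x => by
    obtain ⟨_, y, rfl⟩ := x
    exact Subtype.ext (hφ y)
  have : Module.Finite S M := Module.Finite.of_surjective φ.rangeRestrict φ.surjective_rangeRestrict
  have : Module.Projective S M := Module.Projective.of_split M.subtype φ.rangeRestrict hsplit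
  have : Module.Free S M := Module.free_of_flat_of_isLocalRing
  let b := Module.finBasis S M
  refine ⟨Module.finrank S M, LinearMap.toMatrix' (b.equivFun.toLinearMap ∘ₗ φ.rangeRestrict),
    LinearMap.toMatrix' (M.subtype ∘ₗ b.equivFun.symm.toLinearMap), ?_, ?_⟩
  · rw [← LinearMap.toMatrix'_comp, ← LinearMap.toMatrix'_id]
    congr 1
    refine LinearMap.ext fun x => ?_
    show b.equivFun (φ.rangeRestrict (M.subtype (b.equivFun.symm x))) = x
    rw [show φ.rangeRestrict (M.subtype (b.equivFun.symm x)) = b.equivFun.symm x from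
      LinearMap.congr_fun hsplit _, LinearEquiv.apply_symm_apply]
  · rw [← LinearMap.toMatrix'_comp, ← LinearMap.toMatrix'_toLin' E]
    congr 1
    refine LinearMap.ext fun x => ?_
    show M.subtype (b.equivFun.symm (b.equivFun (φ.rangeRestrict x))) = φ x
    rw [LinearEquiv.symm_apply_apply]
    rfl

/-- **The cokernel** of a pair of intertwiners with a left inverse. -/
theorem exists_coker (A : PMod S τ d) (B : PMod S τ f) (i₁ i₂ : Matrix (Fin f) (Fin d) S)
    (l₁ l₂ : Matrix (Fin d) (Fin f) S) (h11 : l₁ * i₁ = 1) (h12 : l₁ * i₂ = 0) (h21 : l₂ * i₁ = 0)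
    (h22 : l₂ * i₂ = 1) (hi₁ : ∀ t, B.act t * i₁ = i₁ * A.act t)
    (hi₂ : ∀ t, B.act t * i₂ = i₂ * A.act t) :
    ∃ (e : ℕ) (C : PMod S τ e) (π : Matrix (Fin e) (Fin f) S) (σ : Matrix (Fin f) (Fin e) S),
      π * σ = 1 ∧ σ * π = 1 - i₁ * l₁ - i₂ * l₂ ∧ (∀ t, π * B.act t = C.act t * π) := by
  set E : Matrix (Fin f) (Fin f) S := 1 - i₁ * l₁ - i₂ * l₂ with hEdef
  have hi1 : E * i₁ = 0 := by
    rw [hEdef, Matrix.sub_mul, Matrix.sub_mul, Matrix.one_mul, Matrix.mul_assoc, h11,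
      Matrix.mul_assoc, h21, Matrix.mul_one, Matrix.mul_zero, sub_zero, sub_self]
  have hi2 : E * i₂ = 0 := by
    rw [hEdef, Matrix.sub_mul, Matrix.sub_mul, Matrix.one_mul, Matrix.mul_assoc, h12,
      Matrix.mul_assoc, h22, Matrix.mul_one, Matrix.mul_zero, sub_zero, sub_self]
  have hEE : E * E = E := by
    conv_lhs => rw [hEdef]; arg 1; rw [← hEdef]
    rw [Matrix.mul_sub, Matrix.mul_sub, Matrix.mul_one, ← Matrix.mul_assoc, hi1,
      ← Matrix.mul_assoc, hi2, Matrix.zero_mul, Matrix.zero_mul, sub_zero, sub_zero]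
  obtain ⟨e, π, σ, hπσ, hσπ⟩ := exists_splitting E hEE
  have hπE : π * E = π := by rw [← hσπ, ← Matrix.mul_assoc, hπσ, Matrix.one_mul]
  have hπ1 : π * i₁ = 0 := by rw [← hπE, Matrix.mul_assoc, hi1, Matrix.mul_zero]
  have hπ2 : π * i₂ = 0 := by rw [← hπE, Matrix.mul_assoc, hi2, Matrix.mul_zero]
  have key : ∀ t, π * B.act t * σ * π = π * B.act t := fun t => by
    rw [Matrix.mul_assoc, hσπ, hEdef, Matrix.mul_sub, Matrix.mul_sub, Matrix.mul_one,
      ← Matrix.mul_assoc, Matrix.mul_assoc π, hi₁, ← Matrix.mul_assoc, hπ1,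
      ← Matrix.mul_assoc (π * B.act t) i₂, Matrix.mul_assoc π (B.act t) i₂, hi₂,
      ← Matrix.mul_assoc π i₂, hπ2]
    simp
  refine ⟨e, ⟨fun t => π * B.act t * σ, fun s t => ?_, fun t => ?_⟩, π, σ, hπσ, hσπ,
    fun t => (key t).symm⟩
  · show π * B.act s * σ * (π * B.act t * σ) = π * B.act t * σ * (π * B.act s * σ)
    have h : ∀ u v, π * B.act u * σ * (π * B.act v * σ) = π * (B.act u * B.act v) * σ :=
      fun u v => by
        rw [← Matrix.mul_assoc, ← Matrix.mul_assoc, key]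
        simp only [Matrix.mul_assoc]
    rw [h, h, (B.comm s t).eq]
  · obtain ⟨k, hk⟩ := B.nil t
    have hpow : ∀ n, (π * B.act t * σ) ^ n = π * B.act t ^ n * σ := by
      intro n
      induction n with
      | zero => rw [pow_zero, pow_zero, Matrix.mul_one, hπσ]
      | succ n ih =>
        rw [pow_succ', ih, pow_succ', ← Matrix.mul_assoc, ← Matrix.mul_assoc, key]
        simp only [Matrix.mul_assoc]
    refine ⟨k, fun a b => ?_⟩
    rw [hpow, Matrix.mul_apply]
    exact Ideal.sum_mem _ fun c _ => Ideal.mul_mem_right _ _ (by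
      rw [Matrix.mul_apply]
      exact Ideal.sum_mem _ fun c' _ => Ideal.mul_mem_left _ _ (hk c' c))

variable [IsNoetherianRing S] [IsAdicComplete (maximalIdeal S) S] [Finite (ResidueField S)]
variable {O : Type} [CommRing O] [IsLocalRing O] [IsNoetherianRing O] [Algebra O S] [Finite τ]
variable [IsDomain S]

/-- **The raising lemma**, the middle operator `T` being equal to the action of `t` up to a
nilpotent. -/
theorem ker_coker_le_of_nilpotent {A : PMod S τ d} (hA : A.Integral O) {B : PMod S τ f}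
    {i₁ i₂ : Matrix (Fin f) (Fin d) S} {l₁ l₂ : Matrix (Fin d) (Fin f) S}
    {j₁ j₂ : Matrix (Fin d) (Fin f) S} {s₁ : Matrix (Fin f) (Fin d) S}
    (hs1 : j₁ * s₁ = 1) (hs2 : j₂ * s₁ = 0)
    (hj₁ : ∀ t, j₁ * B.act t = A.act t * j₁) (hj₂ : ∀ t, j₂ * B.act t = A.act t * j₂)
    {c t : MvPowerSeries τ O} {T : Matrix (Fin d) (Fin d) S}
    (hT : ∀ g : MvPowerSeries τ O, Commute (A.hom g) T) {K : ℕ} (hTK : (T - A.hom t) ^ K = 0)
    (h11 : j₁ * i₁ = A.hom c) (h12 : j₁ * i₂ = T)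
    (h21 : j₂ * i₁ = T) (h22 : j₂ * i₂ = A.hom c)
    {e : ℕ} {C : PMod S τ e} {π : Matrix (Fin e) (Fin f) S} {σ : Matrix (Fin f) (Fin e) S}
    (hσπ : σ * π = 1 - i₁ * l₁ - i₂ * l₂) (hπ : ∀ u, π * B.act u = C.act u * π)
    {𝔓 : Ideal (MvPowerSeries τ O)} [𝔓.IsPrime] (hker : RingHom.ker (A.hom (O := O)) ≤ 𝔓)
    (hu : c ^ 2 - t ^ 2 ∈ 𝔓) (hc : c ∉ 𝔓) : RingHom.ker (C.hom (O := O)) ≤ 𝔓 := by
  intro g hg
  rw [RingHom.mem_ker] at hg
  set F := B.hom (O := O) g with hF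
  set X₁ := l₁ * F with hX₁
  set X₂ := l₂ * F with hX₂
  have hsplit : F = i₁ * X₁ + i₂ * X₂ := by
    have h0 : σ * π * F = 0 := by
      rw [Matrix.mul_assoc, hF, B.mul_hom C π hπ, hg, Matrix.zero_mul, Matrix.mul_zero]
    rw [hσπ, Matrix.sub_mul, Matrix.sub_mul, Matrix.one_mul, sub_sub, sub_eq_zero] at h0
    rw [hX₁, hX₂, ← Matrix.mul_assoc, ← Matrix.mul_assoc]
    exact h0
  have e1 : A.hom g = A.hom c * (X₁ * s₁) + T * (X₂ * s₁) := by
    have h := congrArg (· * s₁) (B.mul_hom A j₁ hj₁ g)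
    simp only [← hF] at h
    rw [Matrix.mul_assoc (A.hom g) j₁ s₁, hs1, Matrix.mul_one] at h
    rw [← h, hsplit]
    simp only [Matrix.mul_add, Matrix.add_mul, ← Matrix.mul_assoc, h11, h12]
  have e2 : T * (X₁ * s₁) + A.hom c * (X₂ * s₁) = 0 := by
    have h := congrArg (· * s₁) (B.mul_hom A j₂ hj₂ g)
    simp only [← hF] at h
    rw [Matrix.mul_assoc (A.hom g) j₂ s₁, hs2, Matrix.mul_zero, hsplit] at h
    rw [← h]
    simp only [Matrix.mul_add, Matrix.add_mul, ← Matrix.mul_assoc, h21, h22]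
  set W := X₁ * s₁
  set N : Matrix (Fin d) (Fin d) S := A.hom t * A.hom t - T * T with hN
  have e3 : A.hom (c * g) = (A.hom (c ^ 2 - t ^ 2) + N) * W := by
    have e2' := congrArg (T * ·) e2
    simp only [Matrix.mul_zero, Matrix.mul_add] at e2'
    rw [map_mul, e1, map_sub, map_pow, map_pow, pow_two, pow_two, hN, sub_add_sub_cancel,
      Matrix.sub_mul, Matrix.mul_add, Matrix.mul_assoc (A.hom c) (A.hom c),
      Matrix.mul_assoc T T, ← Matrix.mul_assoc (A.hom c) T, (hT c).eq,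
      Matrix.mul_assoc T (A.hom c), eq_neg_of_add_eq_zero_right e2', ← sub_eq_add_neg]
  have hNK : N ^ K = 0 := by
    have hcomm : Commute (T - A.hom t) (-(A.hom t + T)) :=
      ((((hT t).symm.add_right (Commute.refl T))).sub_left
        ((Commute.refl (A.hom t)).add_right (hT t))).neg_right
    have e : N = (T - A.hom t) * -(A.hom t + T) := by
      rw [hN, Matrix.mul_neg, Matrix.sub_mul, Matrix.mul_add, Matrix.mul_add, (hT t).symm.eq]
      abel
    rw [e, hcomm.mul_pow, hTK, Matrix.zero_mul]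
  set G := A.hom (c ^ 2 - t ^ 2) + N with hG
  have hGg : Commute (A.hom (c * g)) G := by
    rw [hG, hN]
    exact (A.hom_mul_comm _ _).add_right
      (((A.hom_mul_comm _ _).mul_right (A.hom_mul_comm _ _)).sub_right
        ((hT _).mul_right (hT _)))
  have hpow : ∀ m : ℕ, ∃ Wm, A.hom ((c * g) ^ m) = G ^ m * Wm := by
    intro m
    induction m with
    | zero => exact ⟨1, by simp⟩
    | succ m ih =>
      obtain ⟨Wm, hWm⟩ := ih
      refine ⟨W * Wm, ?_⟩
      rw [pow_succ', map_mul, hWm, ← Matrix.mul_assoc, (hGg.pow_right m).eq, Matrix.mul_assoc, e3,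
        pow_succ]
      simp only [Matrix.mul_assoc]
  have hGK : ∀ m : ℕ, ∃ Z, G ^ m = N ^ m + A.hom (c ^ 2 - t ^ 2) * Z := by
    intro m
    induction m with
    | zero => exact ⟨0, by simp⟩
    | succ m ih =>
      obtain ⟨Z, hZ⟩ := ih
      have hNu : Commute (N ^ m) (A.hom (c ^ 2 - t ^ 2)) := by
        rw [hN]
        exact ((((A.hom_mul_comm _ _).mul_left (A.hom_mul_comm _ _))).sub_left
          ((hT _).symm.mul_left (hT _).symm)).pow_left m
      refine ⟨N ^ m + Z * G, ?_⟩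
      rw [pow_succ, pow_succ, hZ, hG, Matrix.add_mul, Matrix.mul_add (N ^ m), hNu.eq,
        Matrix.mul_add (A.hom (c ^ 2 - t ^ 2)), Matrix.mul_assoc]
      abel
  obtain ⟨Wm, hWm⟩ := hpow K
  obtain ⟨Z, hZ⟩ := hGK K
  have hmem : (c * g) ^ K ∈ 𝔓 := hA.mem_of_eq_mul hker hu (W := Z * Wm) (by
    rw [hWm, hZ, hNK, zero_add, Matrix.mul_assoc])
  exact ((‹𝔓.IsPrime›).mem_or_mem (‹𝔓.IsPrime›.mem_of_pow_mem K hmem)).resolve_left hc

/-- **The raising lemma.** -/
theorem ker_coker_le {A : PMod S τ d} (hA : A.Integral O) {B : PMod S τ f}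
    {i₁ i₂ : Matrix (Fin f) (Fin d) S} {l₁ l₂ : Matrix (Fin d) (Fin f) S}
    {j₁ j₂ : Matrix (Fin d) (Fin f) S} {s₁ : Matrix (Fin f) (Fin d) S}
    (hs1 : j₁ * s₁ = 1) (hs2 : j₂ * s₁ = 0)
    (hj₁ : ∀ t, j₁ * B.act t = A.act t * j₁) (hj₂ : ∀ t, j₂ * B.act t = A.act t * j₂)
    {c t : MvPowerSeries τ O} (h11 : j₁ * i₁ = A.hom c) (h12 : j₁ * i₂ = A.hom t)
    (h21 : j₂ * i₁ = A.hom t) (h22 : j₂ * i₂ = A.hom c)
    {e : ℕ} {C : PMod S τ e} {π : Matrix (Fin e) (Fin f) S} {σ : Matrix (Fin f) (Fin e) S}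
    (hσπ : σ * π = 1 - i₁ * l₁ - i₂ * l₂) (hπ : ∀ u, π * B.act u = C.act u * π)
    {𝔓 : Ideal (MvPowerSeries τ O)} [𝔓.IsPrime] (hker : RingHom.ker (A.hom (O := O)) ≤ 𝔓)
    (hu : c ^ 2 - t ^ 2 ∈ 𝔓) (hc : c ∉ 𝔓) : RingHom.ker (C.hom (O := O)) ≤ 𝔓 :=
  ker_coker_le_of_nilpotent hA hs1 hs2 hj₁ hj₂ (fun g => A.hom_mul_comm g t) (K := 1)
    (by rw [pow_one, sub_self]) h11 h12 h21 h22 hσπ hπ hker hu hc

end FLTAgent.RT.Patch
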