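import Fermat.Agent.RT.Patch.Support

/-!
# Restricting a patched module to some of the variables
-/

set_option autoImplicit false

noncomputable section

open IsLocalRing Matrix

namespace FLTAgent.RT.Patch

variable {S : Type} [CommRing S] [IsLocalRing S] [IsNoetherianRing S]
  [IsAdicComplete (maximalIdeal S) S] {O : Type} [CommRing O] [IsLocalRing O] [Algebra O S]

/-- Two actions of a power series ring on a free module agreeing on the variables are equal. -/
theorem algHom_matrix_ext [IsNoetherianRing O] [Finite (ResidueField S)] {τ : Type} [Finite τ]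
    {a b : ℕ} (g g' : MvPowerSeries τ O →ₐ[O] Matrix (Fin a) (Fin a) S)
    (h : ∀ i, g (MvPowerSeries.X i) = g' (MvPowerSeries.X i)) : g = g' := by
  refine AlgHom.ext fun f => matrix_eq_of_forall_map_eq fun n => ?_
  have := finite_quotient_pow (S := S) n
  have : Finite (Matrix (Fin a) (Fin a) (S ⧸ maximalIdeal S ^ n)) :=
    inferInstanceAs (Finite (Fin a → Fin a → S ⧸ maximalIdeal S ^ n))
  let q : Matrix (Fin a) (Fin a) S →ₐ[O] Matrix (Fin a) (Fin a) (S ⧸ maximalIdeal S ^ n) :=
    (Ideal.Quotient.mkₐ O (maximalIdeal S ^ n)).mapMatrix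
  exact DFunLike.congr_fun (algHom_finite_ext (g := q.comp g) (g' := q.comp g') fun i => by
    rw [AlgHom.comp_apply, AlgHom.comp_apply, h]) f

/-- The inclusion of power series rings along a map of variables. -/
def inclPS [IsNoetherianRing O] [IsAdicComplete (maximalIdeal O) O] {τ' τ : Type} [Finite τ'] [Finite τ]
    (σ : τ' → τ) : MvPowerSeries τ' O →ₐ[O] MvPowerSeries τ O :=
  haveI := Deformation.isAdicComplete_powerSeries (σ := τ) (𝒪 := O)
  Deformation.psEval (fun j => MvPowerSeries.X (σ j))
    fun _ => Deformation.span_X_le_maximalIdeal (Ideal.subset_span ⟨_, rfl⟩)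

theorem inclPS_X [IsNoetherianRing O] [IsAdicComplete (maximalIdeal O) O] {τ' τ : Type} [Finite τ']
    [Finite τ] (σ : τ' → τ) (j : τ') :
    inclPS (O := O) σ (MvPowerSeries.X j) = MvPowerSeries.X (σ j) := by
  haveI := Deformation.isAdicComplete_powerSeries (σ := τ) (𝒪 := O)
  exact Deformation.psEval_X _ _ j

/-- An inclusion of variables sends the maximal ideal into the maximal ideal. -/
theorem inclPS_mem_maximalIdeal [IsNoetherianRing O] [IsAdicComplete (maximalIdeal O) O]
    {τ' τ : Type} [Finite τ'] [Finite τ] (σ : τ' → τ) {z : MvPowerSeries τ' O}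
    (hz : z ∈ maximalIdeal (MvPowerSeries τ' O)) :
    inclPS σ z ∈ maximalIdeal (MvPowerSeries τ O) := by
  classical
  have h1 := Deformation.sub_truncTotal_mem_span_X_pow z 1
  rw [pow_one] at h1
  have hC : (MvPowerSeries.truncTotal 1 z : MvPowerSeries τ' O) =
      algebraMap O _ (MvPowerSeries.constantCoeff z) := by
    ext d
    rw [MvPolynomial.coeff_coe, MvPowerSeries.algebraMap_apply, MvPowerSeries.coeff_C,
      Algebra.algebraMap_self_apply, MvPowerSeries.coeff_truncTotal_eq_ite]
    by_cases hd : d = 0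
    · subst hd; simp
    · have : d.degree ≠ 0 := fun h => hd ((Finsupp.degree_eq_zero_iff _).mp h)
      simp [hd, this]
  rw [hC] at h1
  rw [← sub_add_cancel z (algebraMap O _ (MvPowerSeries.constantCoeff z)), map_add, AlgHom.commutes]
  refine Ideal.add_mem _ ?_ ?_
  · have hle : (Ideal.span (Set.range (MvPowerSeries.X (σ := τ') (R := O)))).map
        (inclPS (O := O) σ) ≤ maximalIdeal (MvPowerSeries τ O) := by
      rw [Ideal.map_span, Ideal.span_le]
      rintro _ ⟨_, ⟨j, rfl⟩, rfl⟩
      rw [inclPS_X]
      exact Deformation.span_X_le_maximalIdeal (Ideal.subset_span ⟨_, rfl⟩)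
    exact hle (Ideal.mem_map_of_mem _ h1)
  · rw [Deformation.mem_maximalIdeal_powerSeries, Deformation.constantCoeff_algebraMap]
    exact Deformation.mem_maximalIdeal_powerSeries.mp hz

omit [IsNoetherianRing S] [IsAdicComplete (maximalIdeal S) S] in
theorem PMod.eq_of_act {τ : Type} {d : ℕ} {P P' : PMod S τ d} (h : ∀ j, P.act j = P'.act j) :
    P = P' := by
  cases P; cases P'
  congr
  exact funext h

/-- The patched module seen through some of the variables. -/
def PMod.restrict {τ' τ : Type} {d : ℕ} (P : PMod S τ d) (σ : τ' → τ) : PMod S τ' d :=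
  ⟨fun j => P.act (σ j), fun i j => P.comm _ _, fun j => P.nil _⟩

variable [IsNoetherianRing O] [IsAdicComplete (maximalIdeal O) O] [Finite (ResidueField S)]
  {τ' τ : Type} [Finite τ'] [Finite τ] {d : ℕ} (P : PMod S τ d) (σ : τ' → τ)

theorem PMod.hom_restrict (f : MvPowerSeries τ' O) :
    (P.restrict σ).hom f = P.hom (inclPS σ f) := by
  have h : (P.restrict σ).hom (O := O) = (P.hom).comp (inclPS σ) :=
    algHom_matrix_ext (b := d) _ _ fun j => by
      rw [AlgHom.comp_apply, inclPS_X, PMod.hom_X, PMod.hom_X]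
      rfl
  exact DFunLike.congr_fun h f

variable [IsDomain S] [Finite (ResidueField O)]

omit [IsDomain S] in
/-- Integrality descends when the action factors through the smaller ring. -/
theorem PMod.Integral.restrict {P : PMod S τ d} (h : P.Integral O) {σ : τ' → τ}
    (π : MvPowerSeries τ O →ₐ[O] MvPowerSeries τ' O)
    (hπ : ∀ f, P.hom f = (P.restrict σ).hom (π f)) : (P.restrict σ).Integral O := by
  intro s
  obtain ⟨p, hp, hp0⟩ := h s
  refine ⟨p.map π.toRingHom, hp.map _, Subtype.ext ?_⟩
  have h0 := congrArg (P.alg.val : P.alg → Matrix (Fin d) (Fin d) S) hp0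
  rw [map_zero, Polynomial.eval₂_eq_sum_range, map_sum] at h0
  rw [Polynomial.eval₂_map, Polynomial.eval₂_eq_sum_range, AddSubmonoidClass.coe_finsetSum,
    ZeroMemClass.coe_zero, ← h0]
  refine Finset.sum_congr rfl fun j _ => ?_
  show (P.restrict σ).hom (π (p.coeff j)) *
      ((algebraMap S (P.restrict σ).alg s ^ j : (P.restrict σ).alg) : Matrix (Fin d) (Fin d) S) =
    P.hom (p.coeff j) * ((algebraMap S P.alg s ^ j : P.alg) : Matrix (Fin d) (Fin d) S)
  rw [← hπ, ← map_pow, ← map_pow]
  rfl

omit [IsDomain S] in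
/-- Integrality through fewer variables gives integrality through all of them. -/
theorem PMod.Integral.of_restrict {P : PMod S τ d} {σ : τ' → τ}
    (h : (P.restrict σ).Integral O) : P.Integral O := by
  intro s
  obtain ⟨p, hp, hp0⟩ := h s
  refine ⟨p.map (inclPS σ).toRingHom, hp.map _, Subtype.ext ?_⟩
  have h0 := congrArg ((P.restrict σ).alg.val : (P.restrict σ).alg → Matrix (Fin d) (Fin d) S) hp0
  rw [map_zero, Polynomial.eval₂_eq_sum_range, map_sum] at h0
  rw [Polynomial.eval₂_map, Polynomial.eval₂_eq_sum_range, AddSubmonoidClass.coe_finsetSum,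
    ZeroMemClass.coe_zero, ← h0]
  refine Finset.sum_congr rfl fun j _ => ?_
  show P.hom (inclPS σ (p.coeff j)) *
      ((algebraMap S P.alg s ^ j : P.alg) : Matrix (Fin d) (Fin d) S) =
    (P.restrict σ).hom (p.coeff j) *
      ((algebraMap S (P.restrict σ).alg s ^ j : (P.restrict σ).alg) : Matrix (Fin d) (Fin d) S)
  rw [P.hom_restrict, ← map_pow, ← map_pow]
  rfl

omit [IsDomain S] in
/-- An action for which every variable agrees with a series in some of the variables factors
through them. -/
theorem PMod.hom_eq_restrict_ret (π : MvPowerSeries τ O →ₐ[O] MvPowerSeries τ' O)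
    (h : ∀ x, P.hom (MvPowerSeries.X x - inclPS σ (π (MvPowerSeries.X x))) = 0)
    (g : MvPowerSeries τ O) : P.hom g = (P.restrict σ).hom (π g) := by
  have he : P.hom (O := O) = ((P.hom).comp (inclPS σ)).comp π :=
    algHom_matrix_ext (b := d) _ _ fun x => by
      rw [AlgHom.comp_apply, AlgHom.comp_apply, ← sub_eq_zero, ← map_sub]
      exact h x
  rw [P.hom_restrict]
  exact DFunLike.congr_fun he g

end FLTAgent.RT.Patch
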