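import Fermat.Agent.RT.Patch.PModLimit
import Mathlib.RingTheory.Ideal.GoingUp
import Mathlib.RingTheory.Ideal.HasGoingUp
import Mathlib.RingTheory.KrullDimension.NonZeroDivisors
import Mathlib.RingTheory.Ideal.MinimalPrime.Localization
import Mathlib.LinearAlgebra.Matrix.Charpoly.LinearMap

/-!
# The support of a patched module

A patched module is free over `S`, hence when `S` is integral over the image of `O⟦τ⟧` every
minimal prime of its support has the dimension of `S`.
-/

set_option autoImplicit false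

noncomputable section

open IsLocalRing Matrix

namespace FLTAgent.RT.Patch

/-- Integral injective extensions preserve the dimension. -/
theorem ringKrullDim_eq_of_isIntegral (A B : Type*) [CommRing A] [CommRing B] [Algebra A B]
    [Algebra.IsIntegral A B] (h : Function.Injective (algebraMap A B)) :
    ringKrullDim B = ringKrullDim A := by
  refine le_antisymm (Order.krullDim_le_of_strictMono (PrimeSpectrum.comap (algebraMap A B))
    fun I J hIJ => Ideal.IsIntegral.comap_lt_comap (R := A) hIJ) ?_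
  refine iSup_le fun l => ?_
  obtain ⟨P, -, hP, hcomap⟩ := Ideal.exists_ideal_over_prime_of_isIntegral l.head.asIdeal
    (⊥ : Ideal B) (by rw [Ideal.comap_bot_of_injective _ h]; exact bot_le)
  have : P.LiesOver l.head.asIdeal := ⟨hcomap.symm⟩
  obtain ⟨L, hlen, -, -⟩ := Ideal.exists_ltSeries_of_hasGoingUp (S := B) l P
  rw [← hlen]
  exact le_iSup (fun L : LTSeries (PrimeSpectrum B) => (L.length : WithBot ℕ∞)) L

/-- Minimal primes of the kernel of an integral map to a torsion-free finite `S`-algebra. -/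
theorem minimalPrime_ker_of_isIntegral {R B S : Type*} [CommRing R] [CommRing B] [CommRing S]
    [IsDomain S] [Algebra S B] [Algebra.IsIntegral S B]
    (htf : ∀ s : S, s ≠ 0 → algebraMap S B s ∈ nonZeroDivisors B)
    (f : R →+* B) (hf : f.IsIntegral) {Q : Ideal R} (hQ : Q ∈ (RingHom.ker f).minimalPrimes) :
    ringKrullDim (R ⧸ Q) = ringKrullDim S ∧
      ∀ (a : R) (s : S), s ≠ 0 → f a = algebraMap S B s → a ∉ Q := by
  rw [RingHom.ker_eq_comap_bot] at hQ
  obtain ⟨Q', hQ', hcomap⟩ := Ideal.exists_minimalPrimes_comap_eq f Q hQ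
  have hS : ∀ s : S, s ≠ 0 → algebraMap S B s ∉ Q' := fun s hs hmem =>
    notMem_nonZeroDivisors_of_mem_mem_minimalPrimes hmem hQ' (htf s hs)
  refine ⟨?_, fun a s hs has ha => hS s hs ?_⟩
  · let g : R ⧸ Q →+* B ⧸ Q' := Ideal.quotientMap Q' f hcomap.ge
    letI := g.toAlgebra
    have hg : g.IsIntegral := by
      refine RingHom.IsIntegral.tower_top (Ideal.Quotient.mk Q) g ?_
      rw [show g.comp (Ideal.Quotient.mk Q) = (Ideal.Quotient.mk Q').comp f from
        Ideal.quotientMap_comp_mk hcomap.ge]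
      exact RingHom.IsIntegral.trans f _ hf
        (RingHom.isIntegral_of_surjective _ Ideal.Quotient.mk_surjective)
    have : Algebra.IsIntegral (R ⧸ Q) (B ⧸ Q') := ⟨hg⟩
    rw [← ringKrullDim_eq_of_isIntegral (R ⧸ Q) (B ⧸ Q')
      (Ideal.quotientMap_injective' hcomap.le)]
    have : Algebra.IsIntegral S (B ⧸ Q') := ⟨fun y => by
      obtain ⟨b, rfl⟩ := Ideal.Quotient.mk_surjective y
      exact (Algebra.IsIntegral.isIntegral b).map (Ideal.Quotient.mkₐ S Q')⟩
    refine ringKrullDim_eq_of_isIntegral S (B ⧸ Q')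
      ((injective_iff_map_eq_zero _).mpr fun s hs => ?_)
    by_contra hne
    rw [← Ideal.Quotient.mk_algebraMap, Ideal.Quotient.eq_zero_iff_mem] at hs
    exact hS s hne hs
  · rw [← hcomap, Ideal.mem_comap, has] at ha
    exact ha

variable {S : Type} [CommRing S] [IsLocalRing S] {τ : Type} {d : ℕ} (P : PMod S τ d)

/-- The commutative algebra generated by the action. -/
def PMod.alg : Subalgebra S (Matrix (Fin d) (Fin d) S) :=
  Algebra.adjoin S (Set.range P.act)

instance PMod.instIsMulCommutativeAlg : IsMulCommutative P.alg :=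
  Algebra.isMulCommutative_adjoin S (by
    rintro _ ⟨i, rfl⟩ _ ⟨j, rfl⟩
    exact (P.comm i j).eq)

open scoped IsMulCommutative in
instance PMod.instCommRingAlg : CommRing P.alg := inferInstance

variable [IsNoetherianRing S] [IsAdicComplete (maximalIdeal S) S]
variable {O : Type} [CommRing O] [IsLocalRing O] [Algebra O S] [Finite τ]

instance PMod.instFiniteAlg : Module.Finite S P.alg :=
  Module.Finite.of_injective P.alg.val.toLinearMap Subtype.val_injective

theorem PMod.hom_mem_alg (f : MvPowerSeries τ O) : P.hom f ∈ P.alg := by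
  have h : ∀ x : Matrix (Fin d) (Fin d) S × S, x ∈ P.aug → x.1 ∈ P.alg := fun x hx => by
    induction hx using Algebra.adjoin_induction with
    | mem g hg =>
      obtain ⟨i, rfl⟩ := hg
      exact Algebra.subset_adjoin ⟨i, rfl⟩
    | algebraMap r => exact P.alg.algebraMap_mem r
    | add x y _ _ hx hy => exact P.alg.add_mem hx hy
    | mul x y _ _ hx hy => exact P.alg.mul_mem hx hy
  exact h _ (SetLike.coe_mem _)

/-- The action with values in the commutative algebra. -/
def PMod.toAlg : MvPowerSeries τ O →+* P.alg :=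
  (P.hom (O := O)).toRingHom.codRestrict P.alg.toSubsemiring fun f => P.hom_mem_alg f

theorem PMod.coe_toAlg (f : MvPowerSeries τ O) :
    (P.toAlg f : Matrix (Fin d) (Fin d) S) = P.hom f :=
  rfl

theorem PMod.ker_toAlg : RingHom.ker (P.toAlg (O := O)) = RingHom.ker (P.hom (O := O)) := by
  ext f
  rw [RingHom.mem_ker, RingHom.mem_ker, ← P.coe_toAlg]
  exact ⟨fun h => by rw [h]; rfl, fun h => Subtype.ext h⟩

variable (O) in
/-- The scalars are integral over the image of the power series ring. -/
def PMod.Integral : Prop :=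
  ∀ s : S, (P.toAlg (O := O)).IsIntegralElem (algebraMap S P.alg s)

variable {P}

theorem PMod.Integral.isIntegral (h : P.Integral O) : (P.toAlg (O := O)).IsIntegral := by
  letI := (P.toAlg (O := O)).toAlgebra
  rintro ⟨x, hx⟩
  change IsIntegral (MvPowerSeries τ O) (⟨x, hx⟩ : P.alg)
  induction hx using Algebra.adjoin_induction with
  | mem g hg =>
    obtain ⟨i, rfl⟩ := hg
    convert isIntegral_algebraMap (R := MvPowerSeries τ O) (A := P.alg)
      (x := MvPowerSeries.X i) using 1
    exact Subtype.ext (P.hom_X i).symm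
  | algebraMap r => exact h r
  | add x y _ _ hx hy => exact hx.add hy
  | mul x y _ _ hx hy => exact hx.mul hy

variable [IsDomain S]

set_option maxHeartbeats 1000000 in
/-- **Minimal primes of the support** have the dimension of `S` and avoid nonzero scalars. -/
theorem PMod.Integral.minimalPrime (h : P.Integral O) {Q : Ideal (MvPowerSeries τ O)}
    (hQ : Q ∈ (RingHom.ker (P.hom (O := O))).minimalPrimes) :
    ringKrullDim (MvPowerSeries τ O ⧸ Q) = ringKrullDim S ∧
      ∀ a : O, algebraMap O S a ≠ 0 → algebraMap O (MvPowerSeries τ O) a ∉ Q := by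
  rw [← P.ker_toAlg] at hQ
  have hint : Algebra.IsIntegral S P.alg := Algebra.IsIntegral.of_finite S P.alg
  have htf : ∀ s : S, s ≠ 0 → algebraMap S P.alg s ∈ nonZeroDivisors P.alg := fun s hs => by
    refine mem_nonZeroDivisors_iff_right.mpr fun x hx => Subtype.ext (Matrix.ext fun a b => ?_)
    have h1 := congrFun (congrFun (congrArg Subtype.val hx) a) b
    simp [Algebra.algebraMap_eq_smul_one, hs] at h1
    exact h1
  have key := @minimalPrime_ker_of_isIntegral (MvPowerSeries τ O) P.alg S _ _ _ _ _ hint htf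
  obtain ⟨h1, h2⟩ := key (P.toAlg (O := O)) h.isIntegral (Q := Q) hQ
  refine ⟨h1, fun a ha => h2 _ _ ha (Subtype.ext ?_)⟩
  rw [P.coe_toAlg, AlgHom.commutes]
  exact IsScalarTower.algebraMap_apply O S (Matrix (Fin d) (Fin d) S) a

/-- A minimal prime of the support containing a prime of dimension at most that of `S` equals
it. -/
theorem PMod.Integral.eq_of_le (h : P.Integral O) [IsNoetherianRing O]
    {Q : Ideal (MvPowerSeries τ O)} (hQ : Q ∈ (RingHom.ker (P.hom (O := O))).minimalPrimes)
    {K : Ideal (MvPowerSeries τ O)} [K.IsPrime] (hKQ : K ≤ Q)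
    (hdim : ringKrullDim (MvPowerSeries τ O ⧸ K) ≤ ringKrullDim S)
    (hfin : ringKrullDim S < ⊤) : K = Q := by
  refine hKQ.eq_of_not_lt fun hlt => ?_
  obtain ⟨-, x, hxQ, hxK⟩ := SetLike.lt_iff_le_and_exists.mp hlt
  have hx : Ideal.Quotient.mk K x ∈ nonZeroDivisors (MvPowerSeries τ O ⧸ K) :=
    mem_nonZeroDivisors_of_ne_zero fun h0 => hxK (Ideal.Quotient.eq_zero_iff_mem.mp h0)
  have h1 := ringKrullDim_succ_le_of_surjective (Ideal.Quotient.factor hKQ)
    (Ideal.Quotient.factor_surjective hKQ) hx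
    (Ideal.Quotient.eq_zero_iff_mem.mpr hxQ)
  rw [(h.minimalPrime hQ).1] at h1
  refine absurd (h1.trans hdim) (not_le.mpr ?_)
  have hQp : Q.IsPrime := hQ.1.1
  have : Nontrivial S := IsLocalRing.toNontrivial
  obtain ⟨n, hn⟩ : ∃ n : ℕ, ringKrullDim S = n := by
    have hbot : ringKrullDim S ≠ ⊥ := (ringKrullDim_nonneg_of_nontrivial.trans_lt' (by simp)).ne'
    obtain ⟨m, hm⟩ := WithBot.ne_bot_iff_exists.mp hbot
    rw [← hm] at hfin ⊢
    obtain ⟨n, hn⟩ := ENat.ne_top_iff_exists.mp (WithBot.coe_lt_coe.mp hfin).ne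
    exact ⟨n, by rw [← hn]; rfl⟩
  rw [hn]
  exact_mod_cast Nat.lt_succ_self n

/-- **Determinant trick**: if `g` acts on the module with image in `u` times the module, `g` lies
in every prime of the support containing `u`. -/
theorem PMod.Integral.mem_of_eq_mul (h : P.Integral O) {𝔓 : Ideal (MvPowerSeries τ O)}
    [𝔓.IsPrime] (hker : RingHom.ker (P.hom (O := O)) ≤ 𝔓) {g u : MvPowerSeries τ O}
    (hu : u ∈ 𝔓) {W : Matrix (Fin d) (Fin d) S} (hW : P.hom g = P.hom u * W) : g ∈ 𝔓 := by
  letI := (P.toAlg (O := O)).toAlgebra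
  have : Algebra.IsIntegral (MvPowerSeries τ O) P.alg := ⟨h.isIntegral⟩
  obtain ⟨𝔔, -, h𝔔, hcomap⟩ := Ideal.exists_ideal_over_prime_of_isIntegral 𝔓 (⊥ : Ideal P.alg)
    (by rw [← RingHom.ker_eq_comap_bot]; exact P.ker_toAlg.le.trans hker)
  have : Module.Finite P.alg (Matrix (Fin d) (Fin d) S) :=
    Module.Finite.of_restrictScalars_finite S P.alg _
  set g' : P.alg := P.toAlg g with hg'
  set u' : P.alg := P.toAlg u with hu'
  have hu𝔔 : u' ∈ 𝔔 := by rwa [← hcomap] at hu
  suffices g' ∈ 𝔔 by rwa [← hcomap]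
  obtain ⟨p, hp, -, hcoeff, hzero⟩ :=
    LinearMap.exists_monic_and_natDegree_eq_and_coeff_mem_pow_and_aeval_eq_zero P.alg
      (algebraMap P.alg (Module.End P.alg (Matrix (Fin d) (Fin d) S)) g') (Ideal.span {u'}) (by
        rintro _ ⟨x, rfl⟩
        have h1 : (g' • x : Matrix (Fin d) (Fin d) S) = u' • (W * x) := by
          show P.hom g * x = P.hom u * (W * x)
          rw [hW, Matrix.mul_assoc]
        rw [Module.algebraMap_end_apply, h1]
        exact Submodule.smul_mem_smul (Ideal.mem_span_singleton_self u') Submodule.mem_top)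
  rw [Polynomial.aeval_algebraMap_apply] at hzero
  have h0 : Polynomial.aeval g' p = 0 := by
    have h1 := LinearMap.congr_fun hzero (1 : Matrix (Fin d) (Fin d) S)
    rw [Module.algebraMap_end_apply, LinearMap.zero_apply] at h1
    refine Subtype.ext ?_
    rw [ZeroMemClass.coe_zero, ← h1]
    exact (mul_one _).symm
  refine h𝔔.mem_of_pow_mem p.natDegree ?_
  rw [Polynomial.aeval_eq_sum_range, Finset.sum_range_succ, hp.coeff_natDegree, one_smul] at h0
  rw [eq_neg_of_add_eq_zero_right h0]
  refine 𝔔.neg_mem (Ideal.sum_mem _ fun j hj => ?_)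
  rw [smul_eq_mul]
  refine Ideal.mul_mem_right _ _ ?_
  exact Ideal.pow_le_self (n := p.natDegree - j) (Nat.sub_pos_of_lt (Finset.mem_range.mp hj)).ne'
    (Ideal.pow_right_mono ((Ideal.span_singleton_le_iff_mem _).mpr hu𝔔) _ (hcoeff j))

omit [IsDomain S] in
/-- The residue field of a power series ring. -/
theorem finite_residueField_powerSeries [Finite (ResidueField O)] :
    Finite (ResidueField (MvPowerSeries τ O)) := by
  have : IsLocalHom (MvPowerSeries.constantCoeff (σ := τ) (R := O)) :=
    ⟨fun f hf => MvPowerSeries.isUnit_iff_constantCoeff.mpr hf⟩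
  exact Finite.of_injective _
    (IsLocalRing.ResidueField.map (MvPowerSeries.constantCoeff (σ := τ) (R := O))).injective

variable [IsNoetherianRing O] [IsAdicComplete (maximalIdeal O) O] [Finite (ResidueField O)]
  [Finite (ResidueField S)]

omit [IsDomain S] in
variable (P) in
/-- **Closedness**: the combinations of finitely many matrices with coefficients in the image of
the action form a closed set. -/
theorem PMod.exists_eq_sum_of_approx {K : Type} [Fintype K]
    (B : K → Matrix (Fin d) (Fin d) S) (M : Matrix (Fin d) (Fin d) S)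
    (h : ∀ n, ∃ a : K → MvPowerSeries τ O, ∀ x y,
      (M - ∑ k, P.hom (a k) * B k) x y ∈ maximalIdeal S ^ n) :
    ∃ a : K → MvPowerSeries τ O, M = ∑ k, P.hom (a k) * B k := by
  have := finite_residueField_powerSeries (O := O) (τ := τ)
  have := Deformation.isAdicComplete_powerSeries (σ := τ) (𝒪 := O)
  choose a ha using h
  obtain ⟨L, φ, hφ, hL⟩ := exists_subseq_limit a
  refine ⟨L, sub_eq_zero.mp (Matrix.ext fun x y =>
    Deformation.eq_zero_of_forall_mem_pow (I := maximalIdeal S) fun n => ?_)⟩
  obtain ⟨N, hN⟩ := P.exists_hom_mem_pow (O := O) n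
  have e : M - ∑ k, P.hom (L k) * B k = (M - ∑ k, P.hom (a (φ (n + N)) k) * B k) -
      ∑ k, P.hom (L k - a (φ (n + N)) k) * B k := by
    simp only [map_sub, Matrix.sub_mul, Finset.sum_sub_distrib]
    abel
  rw [e, Matrix.sub_apply, Matrix.sum_apply]
  refine sub_mem ?_ (Ideal.sum_mem _ fun k _ => ?_)
  · exact Ideal.pow_le_pow_right ((Nat.le_add_right n N).trans (hφ.id_le _)) (ha _ x y)
  · rw [Matrix.mul_apply]
    exact Ideal.sum_mem _ fun c _ => Ideal.mul_mem_right _ _
      (hN _ (Ideal.pow_le_pow_right (Nat.le_add_left N n) (hL _ _)) x c)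

omit [IsDomain S] in
variable (P) in
/-- **Integrality from generators**: it suffices that topological generators of `S` are integral. -/
theorem PMod.integral_of_generators {r : ℕ} (y : Fin r → S)
    (hgen : ∀ (s : S) (n : ℕ), ∃ z ∈ Algebra.adjoin O (Set.range y), s - z ∈ maximalIdeal S ^ n)
    (hy : ∀ j, (P.toAlg (O := O)).IsIntegralElem (algebraMap S P.alg (y j))) :
    P.Integral O := by
  classical
  letI := (P.toAlg (O := O)).toAlgebra
  set B' : Subalgebra (MvPowerSeries τ O) P.alg :=
    Algebra.adjoin _ (Set.range fun j => algebraMap S P.alg (y j)) with hB'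
  have hfg : B'.toSubmodule.FG := fg_adjoin_of_finite (Set.finite_range _)
    (by rintro _ ⟨j, rfl⟩; exact hy j)
  obtain ⟨t, ht⟩ := hfg
  have hz : ∀ z ∈ Algebra.adjoin O (Set.range y), algebraMap S P.alg z ∈ B' := fun z hz => by
    induction hz using Algebra.adjoin_induction with
    | mem g hg =>
      obtain ⟨j, rfl⟩ := hg
      exact Algebra.subset_adjoin ⟨j, rfl⟩
    | algebraMap c =>
      convert B'.algebraMap_mem (algebraMap O (MvPowerSeries τ O) c) using 1
      refine Subtype.ext ?_
      show algebraMap S (Matrix (Fin d) (Fin d) S) (algebraMap O S c) =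
        P.hom (algebraMap O (MvPowerSeries τ O) c)
      rw [AlgHom.commutes, ← IsScalarTower.algebraMap_apply]
    | add u v _ _ hu hv => rw [map_add]; exact B'.add_mem hu hv
    | mul u v _ _ hu hv => rw [map_mul]; exact B'.mul_mem hu hv
  intro s
  obtain ⟨a, ha⟩ := P.exists_eq_sum_of_approx (O := O) (K := t)
    (fun k => ((k.1 : P.alg) : Matrix (Fin d) (Fin d) S)) (algebraMap S _ s) fun n => by
      obtain ⟨z, hz', hsz⟩ := hgen s n
      have hmem : algebraMap S P.alg z ∈ Submodule.span (MvPowerSeries τ O) (t : Set P.alg) :=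
        ht ▸ hz z hz'
      obtain ⟨c, hc⟩ := Submodule.mem_span_finset.mp hmem
      refine ⟨fun k => c k.1, fun u v => ?_⟩
      have he : ∑ k : t, P.hom (c k.1) * ((k.1 : P.alg) : Matrix (Fin d) (Fin d) S) =
          algebraMap S (Matrix (Fin d) (Fin d) S) z := by
        have h1 := congrArg (P.alg.val : P.alg → Matrix (Fin d) (Fin d) S) hc.2
        rw [map_sum] at h1
        rw [Finset.sum_coe_sort t fun k => P.hom (c k) * ((k : P.alg) : Matrix (Fin d) (Fin d) S)]
        exact h1
      rw [he, ← map_sub, Matrix.algebraMap_matrix_apply]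
      split
      · exact hsz
      · exact Ideal.zero_mem _
  have hint : ∀ k ∈ t, IsIntegral (MvPowerSeries τ O) k := fun k hk => by
    have : Module.Finite (MvPowerSeries τ O) B' :=
      Module.Finite.iff_fg.mpr ⟨t, ht⟩
    have hk' : k ∈ B' := by
      rw [← Subalgebra.mem_toSubmodule, ← ht]
      exact Submodule.subset_span hk
    exact IsIntegral.of_mem_of_fg B' ⟨t, ht⟩ k hk'
  show IsIntegral (MvPowerSeries τ O) (algebraMap S P.alg s)
  rw [show algebraMap S P.alg s = ∑ k : t, a k • (k.1 : P.alg) from Subtype.ext (by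
    rw [AddSubmonoidClass.coe_finsetSum]
    exact ha)]
  exact IsIntegral.sum _ fun k _ => (hint k.1 k.2).smul _

omit [IsDomain S] in
/-- Integrality passes along an intertwiner with a right inverse. -/
theorem PMod.Integral.of_intertwine (h : P.Integral O) {e : ℕ} (C : PMod S τ e)
    (π : Matrix (Fin e) (Fin d) S) (σ' : Matrix (Fin d) (Fin e) S) (hπσ : π * σ' = 1)
    (hπ : ∀ i, π * P.act i = C.act i * π) : C.Integral O := by
  intro s
  obtain ⟨p, hp, hp0⟩ := h s
  refine ⟨p, hp, Subtype.ext ?_⟩
  have h0 := congrArg (P.alg.val : P.alg → Matrix (Fin d) (Fin d) S) hp0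
  rw [map_zero, Polynomial.eval₂_eq_sum_range, map_sum] at h0
  rw [Polynomial.eval₂_eq_sum_range, AddSubmonoidClass.coe_finsetSum, ZeroMemClass.coe_zero]
  refine Eq.trans ?_ (show π * (0 : Matrix (Fin d) (Fin d) S) * σ' = 0 by simp)
  rw [← h0, Matrix.mul_sum, Matrix.sum_mul]
  refine Finset.sum_congr rfl fun j _ => ?_
  show C.hom (p.coeff j) * ((algebraMap S C.alg s ^ j : C.alg) : Matrix (Fin e) (Fin e) S) =
    π * (P.hom (p.coeff j) * ((algebraMap S P.alg s ^ j : P.alg) : Matrix (Fin d) (Fin d) S)) * σ'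
  rw [← map_pow, ← map_pow]
  show C.hom (p.coeff j) * algebraMap S (Matrix (Fin e) (Fin e) S) (s ^ j) =
    π * (P.hom (p.coeff j) * algebraMap S (Matrix (Fin d) (Fin d) S) (s ^ j)) * σ'
  rw [← Algebra.commutes, ← Algebra.commutes, Algebra.algebraMap_eq_smul_one,
    Algebra.algebraMap_eq_smul_one, Matrix.smul_mul, Matrix.smul_mul, Matrix.one_mul,
    Matrix.one_mul, Matrix.mul_smul, Matrix.smul_mul, P.mul_hom C π hπ, Matrix.mul_assoc, hπσ,
    Matrix.mul_one]

end FLTAgent.RT.Patch
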