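import Fermat.Agent.RT.Patch.Support
import Mathlib.RingTheory.Valuation.LocalSubring
import Mathlib.RingTheory.Valuation.Integers
import Mathlib.RingTheory.IntegralClosure.IntegrallyClosed

/-!
# Divisibility at the valuations of a prime of the support

If `g` acts with image in `u` times the module, then at some valuation centred at a given prime of
the support `g` is divisible by `u`.
-/

set_option autoImplicit false

noncomputable section

open IsLocalRing Matrix

namespace FLTAgent.RT.Patch

variable {S : Type} [CommRing S] [IsLocalRing S] [IsNoetherianRing S]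
  [IsAdicComplete (maximalIdeal S) S] [IsDomain S] {τ : Type} [Finite τ] {d : ℕ}
  {P : PMod S τ d} {O : Type} [CommRing O] [IsLocalRing O] [Algebra O S]
  [IsNoetherianRing O] [IsAdicComplete (maximalIdeal O) O] [Finite (ResidueField O)]
  [Finite (ResidueField S)]

/-- A root of a monic polynomial whose `i`-th coefficient is divisible by `u ^ (n - i)` is
divisible by `u` in every valuation ring it maps to. -/
theorem dvd_map_of_monic_coeff_mem_span_pow {A V : Type*} [CommRing A] [CommRing V] [IsDomain V]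
    [ValuationRing V] (φ : A →+* V) {p : Polynomial A} (hp : p.Monic) {g' u' : A}
    (hcoeff : ∀ i, p.coeff i ∈ Ideal.span {u'} ^ (p.natDegree - i))
    (h0 : Polynomial.aeval g' p = 0) : φ u' ∣ φ g' := by
  rw [Polynomial.aeval_eq_sum_range, Finset.sum_range_succ, hp.coeff_natDegree, one_smul] at h0
  set a : V := φ g'
  set b : V := φ u'
  show b ∣ a
  have hrel : a ^ p.natDegree + ∑ i ∈ Finset.range p.natDegree, φ (p.coeff i) * a ^ i = 0 := by
    have := congrArg φ h0
    simp only [map_add, map_sum, map_pow, map_zero, smul_eq_mul, map_mul] at this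
    rw [add_comm]
    exact this
  rcases ValuationRing.dvd_total b a with hd | ⟨e, he⟩
  · exact hd
  -- `b = a e`: then `e` is a unit
  by_cases ha : a = 0
  · rw [ha]; exact dvd_zero _
  suffices IsUnit e by
    obtain ⟨e', he'⟩ := this.exists_right_inv
    exact ⟨e', by rw [he, mul_assoc, he', mul_one]⟩
  choose c hc using fun i => Ideal.mem_span_singleton.mp
    (show p.coeff i ∈ Ideal.span {u' ^ (p.natDegree - i)} by
      rw [← Ideal.span_singleton_pow]
      exact hcoeff i)
  have hsum : 1 + e * ∑ i ∈ Finset.range p.natDegree,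
      φ (c i) * e ^ (p.natDegree - i - 1) = 0 := by
    refine mul_left_cancel₀ (pow_ne_zero p.natDegree ha) ?_
    rw [mul_zero, mul_add, mul_one, Finset.mul_sum, Finset.mul_sum, ← hrel]
    congr 1
    refine Finset.sum_congr rfl fun i hi => ?_
    obtain ⟨m, hm⟩ : ∃ m, p.natDegree = i + (m + 1) :=
      ⟨p.natDegree - i - 1, by have := Finset.mem_range.mp hi; omega⟩
    have e1 : φ (p.coeff i) = b ^ (m + 1) * φ (c i) := by
      rw [hc i, map_mul, map_pow, show p.natDegree - i = m + 1 by omega]
    rw [e1, he, show p.natDegree - i - 1 = m by omega, hm]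
    ring
  refine isUnit_iff_exists_inv.mpr ⟨-∑ i ∈ Finset.range p.natDegree,
    φ (c i) * e ^ (p.natDegree - i - 1), ?_⟩
  linear_combination -hsum


/-- **Determinant trick at a valuation.** -/
theorem PMod.Integral.exists_dvd_of_eq_mul (h : P.Integral O) {𝔓 : Ideal (MvPowerSeries τ O)}
    [𝔓.IsPrime] (hker : RingHom.ker (P.hom (O := O)) ≤ 𝔓) {g u : MvPowerSeries τ O}
    {W : Matrix (Fin d) (Fin d) S} (hW : P.hom g = P.hom u * W) :
    ∃ (V : Type) (_ : CommRing V) (_ : IsDomain V) (_ : ValuationRing V)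
      (f : MvPowerSeries τ O →+* V), IsLocalHom f ∧ RingHom.ker f = 𝔓 ∧ f u ∣ f g := by
  let R := MvPowerSeries τ O
  letI := (P.toAlg (O := O)).toAlgebra
  have : Algebra.IsIntegral R P.alg := ⟨h.isIntegral⟩
  obtain ⟨𝔔, -, h𝔔, hcomap⟩ := Ideal.exists_ideal_over_prime_of_isIntegral 𝔓 (⊥ : Ideal P.alg)
    (by rw [← RingHom.ker_eq_comap_bot]; exact P.ker_toAlg.le.trans hker)
  obtain ⟨𝔫, h𝔫, h𝔔𝔫⟩ := Ideal.exists_le_maximal 𝔔 h𝔔.ne_top
  have h𝔫' : 𝔫.comap (algebraMap R P.alg) = maximalIdeal R := by
    have : (𝔫.comap (algebraMap R P.alg)).IsMaximal :=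
      Ideal.isMaximal_comap_of_isIntegral_of_isMaximal 𝔫
    exact IsLocalRing.eq_maximalIdeal this
  let B := P.alg ⧸ 𝔔
  let 𝔪 : Ideal B := 𝔫.map (Ideal.Quotient.mk 𝔔)
  have hcm : 𝔪.comap (Ideal.Quotient.mk 𝔔) = 𝔫 := by
    rw [Ideal.comap_map_of_surjective _ Ideal.Quotient.mk_surjective, ← RingHom.ker_eq_comap_bot,
      Ideal.mk_ker, sup_eq_left.mpr h𝔔𝔫]
  have h𝔪 : 𝔪.IsPrime := by
    refine Ideal.map_isPrime_of_surjective Ideal.Quotient.mk_surjective ?_
    rw [Ideal.mk_ker]; exact h𝔔𝔫
  let L := Localization.AtPrime 𝔪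
  let K := FractionRing B
  have hdiv : 𝔪.primeCompl ≤ nonZeroDivisors B := fun x hx =>
    mem_nonZeroDivisors_of_ne_zero fun h0 => hx (by rw [h0]; exact 𝔪.zero_mem)
  let j : L →+* K := IsLocalization.map (M := 𝔪.primeCompl) (T := nonZeroDivisors B) K
    (RingHom.id B) hdiv
  have hj : ∀ b, j (algebraMap B L b) = algebraMap B K b := fun b => IsLocalization.map_eq _ b
  obtain ⟨V, hVmem, hVloc⟩ := IsLocalRing.exists_factor_valuationRing j
  let jV : L →+* V := j.codRestrict V.toSubring hVmem
  have hjV : IsLocalHom jV := hVloc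
  let q : P.alg →+* L := (algebraMap B L).comp (Ideal.Quotient.mk 𝔔)
  let f : R →+* V := (jV.comp q).comp (algebraMap R P.alg)
  have hq0 : ∀ x : P.alg, jV (q x) = 0 ↔ x ∈ 𝔔 := fun x => by
    rw [← Ideal.Quotient.eq_zero_iff_mem]
    refine ⟨fun hx => ?_, fun hx => ?_⟩
    · have h1 : algebraMap B K (Ideal.Quotient.mk 𝔔 x) = 0 :=
        (hj _).symm.trans (congrArg Subtype.val hx)
      rwa [map_eq_zero_iff _ (IsFractionRing.injective B K)] at h1
    · show jV (algebraMap B L (Ideal.Quotient.mk 𝔔 x)) = 0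
      rw [hx, map_zero, map_zero]
  have hker' : RingHom.ker f = 𝔓 := by
    ext x
    rw [RingHom.mem_ker, ← hcomap, Ideal.mem_comap]
    exact hq0 _
  have hloc : IsLocalHom f := ⟨fun x hx => by
    by_contra hcon
    have h1 : algebraMap R P.alg x ∈ 𝔫 := by
      rw [← Ideal.mem_comap, h𝔫']
      exact (IsLocalRing.mem_maximalIdeal _).mpr hcon
    have h2 : q (algebraMap R P.alg x) ∈ maximalIdeal L := by
      refine (IsLocalization.AtPrime.to_map_mem_maximal_iff L 𝔪 _).mpr ?_
      exact Ideal.mem_map_of_mem _ h1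
    exact (IsLocalRing.mem_maximalIdeal _).mp h2 (hjV.map_nonunit _ hx)⟩
  refine ⟨V, inferInstance, inferInstance, inferInstance, f, hloc, hker', ?_⟩
  -- the characteristic polynomial relation
  have : Module.Finite P.alg (Matrix (Fin d) (Fin d) S) :=
    Module.Finite.of_restrictScalars_finite S P.alg _
  set g' : P.alg := P.toAlg g with hg'
  set u' : P.alg := P.toAlg u with hu'
  obtain ⟨p, hp, -, hcoeff, hzero⟩ :=
    LinearMap.exists_monic_and_natDegree_eq_and_coeff_mem_pow_and_aeval_eq_zero P.alg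
      (algebraMap P.alg (Module.End P.alg (Matrix (Fin d) (Fin d) S)) g') (Ideal.span {u'}) (by
        rintro _ ⟨x, rfl⟩
        have h1 : (g' • x : Matrix (Fin d) (Fin d) S) = u' • (W * x) := by
          show P.hom g * x = P.hom u * (W * x)
          rw [hW, Matrix.mul_assoc]
        rw [Module.algebraMap_end_apply, h1]
        exact Submodule.smul_mem_smul (Ideal.mem_span_singleton_self u') Submodule.mem_top)
  rw [Polynomial.aeval_algebraMap_apply] at hzero
  have h0 : Polynomial.aeval g' p = 0 := by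
    have h1 := LinearMap.congr_fun hzero (1 : Matrix (Fin d) (Fin d) S)
    rw [Module.algebraMap_end_apply, LinearMap.zero_apply] at h1
    refine Subtype.ext ?_
    rw [ZeroMemClass.coe_zero, ← h1]
    exact (mul_one _).symm
  exact dvd_map_of_monic_coeff_mem_span_pow (jV.comp q) hp hcoeff h0

end FLTAgent.RT.Patch
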